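import Fermat.Agent.S17.GB.Ctx

set_option autoImplicit false

/-!
# S17 / GB : exact algebra of `etaE`, `B`, `pairs`, `B'`, `zs` (no estimates; only `Multiset.map/sum` manipulations)
-/

namespace Fermat.Agent.S17.Ctx

variable {𝒞 : CurveDatum} {mmax emax : ℕ} (X : Ctx 𝒞 mmax emax)

theorem taus_comm (Q Q' : 𝒞.Pt) : X.taus Q Q' = X.taus Q' Q := by
  unfold taus; ring

@[simp] theorem etaE_zero : X.etaE 0 = 0 := by simp [etaE]

theorem etaE_add (E E' : Multiset 𝒞.Pt) : X.etaE (E + E') = X.etaE E + X.etaE E' := by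
  simp [etaE]

theorem etaE_cons (Q : 𝒞.Pt) (E : Multiset 𝒞.Pt) : X.etaE (Q ::ₘ E) = X.eta Q + X.etaE E := by
  simp [etaE]

theorem etaE_singleton (Q : 𝒞.Pt) : X.etaE {Q} = X.eta Q := by simp [etaE]

theorem B_add_left (E₁ E₂ E' : Multiset 𝒞.Pt) : X.B (E₁ + E₂) E' = X.B E₁ E' + X.B E₂ E' := by
  simp [B]

theorem B_add_right (E E₁ E₂ : Multiset 𝒞.Pt) : X.B E (E₁ + E₂) = X.B E E₁ + X.B E E₂ := by
  simp [B, Multiset.sum_map_add]

theorem B_comm (E E' : Multiset 𝒞.Pt) : X.B E E' = X.B E' E := by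
  unfold B
  rw [Multiset.sum_map_sum_map]
  simp only [X.taus_comm]

@[simp] theorem B_zero_left (E : Multiset 𝒞.Pt) : X.B 0 E = 0 := by simp [B]

@[simp] theorem B_zero_right (E : Multiset 𝒞.Pt) : X.B E 0 = 0 := by simp [B]

theorem B_singleton_left (Q : 𝒞.Pt) (E : Multiset 𝒞.Pt) :
    X.B {Q} E = (E.map fun Q' => X.taus Q Q').sum := by simp [B]

theorem diag_add (E E' : Multiset 𝒞.Pt) : X.diag (E + E') = X.diag E + X.diag E' := by
  simp [diag]

@[simp] theorem pairs_zero : X.pairs 0 = 0 := by simp [pairs, diag]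

theorem pairs_add (E E' : Multiset 𝒞.Pt) :
    X.pairs (E + E') = X.pairs E + X.pairs E' + X.B E E' := by
  unfold pairs
  rw [B_add_left, B_add_right, B_add_right, diag_add, X.B_comm E' E]
  ring

theorem pairs_cons (Q : 𝒞.Pt) (E : Multiset 𝒞.Pt) :
    X.pairs (Q ::ₘ E) = X.pairs E + (E.map fun Q' => X.taus Q Q').sum := by
  rw [← Multiset.singleton_add, pairs_add, B_singleton_left]
  have : X.pairs {Q} = 0 := by simp [pairs, B, diag]
  rw [this]
  ring

theorem B'_add_left (E₁ E₂ E' : Multiset 𝒞.Pt) :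
    X.B' (E₁ + E₂) E' = X.B' E₁ E' + X.B' E₂ E' := by
  unfold B'
  rw [B_add_left, etaE_add, Multiset.card_add]
  push_cast
  ring

theorem B'_add_right (E E₁ E₂ : Multiset 𝒞.Pt) :
    X.B' E (E₁ + E₂) = X.B' E E₁ + X.B' E E₂ := by
  unfold B'
  rw [B_add_right, etaE_add, Multiset.card_add]
  push_cast
  ring

theorem B'_comm (E E' : Multiset 𝒞.Pt) : X.B' E E' = X.B' E' E := by
  unfold B'
  rw [X.B_comm E E']
  ring

/-- `zs` is exactly quadratic with polar form `B'`. -/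
theorem zs_add (E E' : Multiset 𝒞.Pt) : X.zs (E + E') = X.zs E + X.zs E' + X.B' E E' := by
  unfold zs B'
  rw [pairs_add, etaE_add, Multiset.card_add]
  push_cast
  ring

end Fermat.Agent.S17.Ctx
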