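import Fermat.Agent.S17.GB.Princ

set_option autoImplicit false

/-!
# S17 / GB : `zs` and `B'` are invariant under linear equivalence; the parallelogram law in a context
-/

namespace Fermat.Agent.S17

open HL Height

/-- linear equivalence with `K`-rational witnesses in `V m`, the residual divisor `R` being admissible together with what is
needed. -/
def Ctx.KLin {𝒞 : CurveDatum} {mmax emax : ℕ} (X : Ctx 𝒞 mmax emax) (m : ℕ)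
    (E E' : Multiset 𝒞.Pt) : Prop :=
  ∃ (a a' : Fin (𝒞.d m) → X.K) (R : Multiset 𝒞.Pt), a ≠ 0 ∧ a' ≠ 0 ∧
    𝒞.Z m (fun i => X.φ (a i)) = E + R ∧ 𝒞.Z m (fun i => X.φ (a' i)) = E' + R ∧ ∀ Q ∈ R, Q ∈ X.P

variable (𝒞 : CurveDatum) (mmax emax : ℕ)

theorem class_mem_add {α : Type} {P : Set α} {E E' : Multiset α} (h : ∀ Q ∈ E, Q ∈ P)
    (h' : ∀ Q ∈ E', Q ∈ P) : ∀ Q ∈ E + E', Q ∈ P := by
  intro Q hQ
  rcases Multiset.mem_add.mp hQ with h1 | h1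
  · exact h Q h1
  · exact h' Q h1

theorem class_mem_rep {α : Type} {P : Set α} {x : α} (hx : x ∈ P) (k : ℕ) :
    ∀ Q ∈ Multiset.replicate k x, Q ∈ P := by
  intro Q hQ
  rw [Multiset.eq_of_mem_replicate hQ]
  exact hx

/-- the section `1` over the field of a context -/
noncomputable def classOne {𝒞 : CurveDatum} {mmax emax : ℕ} (X : Ctx 𝒞 mmax emax) (k : ℕ) :
    Fin (𝒞.d k) → X.K := fun i => ((𝒞.one k i : ℚ) : X.K)

theorem classOne_ne_zero {𝒞 : CurveDatum} {mmax emax : ℕ} (X : Ctx 𝒞 mmax emax) (k : ℕ) :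
    classOne X k ≠ 0 := by
  intro h
  apply 𝒞.one_ne_zero k
  funext i
  have := congrFun h i
  simpa [classOne] using this

theorem classOne_Z {𝒞 : CurveDatum} {mmax emax : ℕ} (X : Ctx 𝒞 mmax emax) (k : ℕ) :
    𝒞.Z k (fun i => X.φ (classOne X k i)) = Multiset.replicate k 𝒞.inf := by
  rw [← 𝒞.Z_one k]
  congr 1
  funext i
  simp [classOne, cst]

/-- `ζ*(E) ≈ ζ*(E')` if `E ~ E'`:  `ζ*(E) - ζ*(E') ≈ B'(E',R) - B'(E,R) = B'(Z a', R) - B'(Z a, R) ≈ 0` (`zs_add`, `zs_Z`, `B'_Z`). -/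
theorem zs_klin (hb : 𝒞.Big mmax emax) (m : ℕ) (hm : 2 * m ≤ emax) : ∃ C : ℝ, 0 ≤ C ∧
    ∀ (X : Ctx 𝒞 mmax emax) (E E' : Multiset 𝒞.Pt), (∀ Q ∈ E, Q ∈ X.P) → (∀ Q ∈ E', Q ∈ X.P) →
    X.KLin m E E' → |X.zs E - X.zs E'| ≤ C * X.w := by
  obtain ⟨C1, hC1, h1⟩ := zs_Z 𝒞 mmax emax hb
  obtain ⟨C2, hC2, h2⟩ := B'_Z 𝒞 mmax emax hb
  refine ⟨2 * C1 + 2 * C2, by positivity, ?_⟩
  rintro X E E' hE hE' ⟨a, a', R, ha, ha', hZ, hZ', hR⟩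
  have hc := 𝒞.card_Z m _ (CurveDatum.dg_map_ne_zero X.φ ha)
  have hc' := 𝒞.card_Z m _ (CurveDatum.dg_map_ne_zero X.φ ha')
  have hRm : Multiset.card R ≤ m := by
    rw [hZ, Multiset.card_add] at hc
    omega
  have adm1 : X.Adm (𝒞.Z m (fun i => X.φ (a i))) :=
    ⟨by rw [hc]; omega, by rw [hZ]; exact class_mem_add hE hR⟩
  have adm1' : X.Adm (𝒞.Z m (fun i => X.φ (a' i))) :=
    ⟨by rw [hc']; omega, by rw [hZ']; exact class_mem_add hE' hR⟩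
  have adm2 : X.Adm (𝒞.Z m (fun i => X.φ (a i)) + R) :=
    ⟨by rw [Multiset.card_add, hc]; omega, class_mem_add adm1.2 hR⟩
  have adm2' : X.Adm (𝒞.Z m (fun i => X.φ (a' i)) + R) :=
    ⟨by rw [Multiset.card_add, hc']; omega, class_mem_add adm1'.2 hR⟩
  have e1 := h1 X m a ha adm1
  have e1' := h1 X m a' ha' adm1'
  have e2 := h2 X m a R ha adm2
  have e2' := h2 X m a' R ha' adm2'
  rw [hZ, X.zs_add] at e1
  rw [hZ', X.zs_add] at e1'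
  rw [hZ, X.B'_add_left] at e2
  rw [hZ', X.B'_add_left] at e2'
  rw [abs_le] at e1 e1' e2 e2' ⊢
  constructor <;> linarith

/-- `B'(E, E'') ≈ B'(E', E'')` if `E ~ E'`. -/
theorem B'_klin (hb : 𝒞.Big mmax emax) (m : ℕ) (hm : 2 * m ≤ emax) : ∃ C : ℝ, 0 ≤ C ∧
    ∀ (X : Ctx 𝒞 mmax emax) (E E' E'' : Multiset 𝒞.Pt), (∀ Q ∈ E, Q ∈ X.P) →
    (∀ Q ∈ E', Q ∈ X.P) → (∀ Q ∈ E'', Q ∈ X.P) → Multiset.card E'' ≤ m →
    X.KLin m E E' → |X.B' E E'' - X.B' E' E''| ≤ C * X.w := by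
  obtain ⟨C2, hC2, h2⟩ := B'_Z 𝒞 mmax emax hb
  refine ⟨2 * C2, by positivity, ?_⟩
  rintro X E E' E'' hE hE' hE'' hcard ⟨a, a', R, ha, ha', hZ, hZ', hR⟩
  have hc := 𝒞.card_Z m _ (CurveDatum.dg_map_ne_zero X.φ ha)
  have hc' := 𝒞.card_Z m _ (CurveDatum.dg_map_ne_zero X.φ ha')
  have adm2 : X.Adm (𝒞.Z m (fun i => X.φ (a i)) + E'') :=
    ⟨by rw [Multiset.card_add, hc]; omega,
      class_mem_add (by rw [hZ]; exact class_mem_add hE hR) hE''⟩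
  have adm2' : X.Adm (𝒞.Z m (fun i => X.φ (a' i)) + E'') :=
    ⟨by rw [Multiset.card_add, hc']; omega,
      class_mem_add (by rw [hZ']; exact class_mem_add hE' hR) hE''⟩
  have e2 := h2 X m a E'' ha adm2
  have e2' := h2 X m a' E'' ha' adm2'
  rw [hZ, X.B'_add_left] at e2
  rw [hZ', X.B'_add_left] at e2'
  rw [abs_le] at e2 e2' ⊢
  constructor <;> linarith

/-- multiples of `∞` are principal (`Z_one`): `ζ*(E + k ∞) ≈ ζ*(E)`. -/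
theorem zs_add_inf (hb : 𝒞.Big mmax emax) : ∃ C : ℝ, 0 ≤ C ∧
    ∀ (X : Ctx 𝒞 mmax emax) (E : Multiset 𝒞.Pt) (k : ℕ),
    X.Adm (E + Multiset.replicate k 𝒞.inf) →
    |X.zs (E + Multiset.replicate k 𝒞.inf) - X.zs E| ≤ C * X.w := by
  obtain ⟨C1, hC1, h1⟩ := zs_Z 𝒞 mmax emax hb
  obtain ⟨C2, hC2, h2⟩ := B'_Z 𝒞 mmax emax hb
  refine ⟨C1 + C2, by positivity, ?_⟩
  intro X E k hadm
  have e1 := h1 X k (classOne X k) (classOne_ne_zero X k)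
    (by rw [classOne_Z]; exact hadm.mono (Multiset.le_add_left _ _))
  have e2 := h2 X k (classOne X k) E (classOne_ne_zero X k)
    (by rw [classOne_Z, add_comm]; exact hadm)
  rw [classOne_Z] at e1 e2
  rw [X.zs_add, X.B'_comm E]
  rw [abs_le] at e1 e2 ⊢
  constructor <;> linarith

theorem B'_inf (hb : 𝒞.Big mmax emax) : ∃ C : ℝ, 0 ≤ C ∧
    ∀ (X : Ctx 𝒞 mmax emax) (E : Multiset 𝒞.Pt) (k : ℕ),
    X.Adm (E + Multiset.replicate k 𝒞.inf) →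
    |X.B' E (Multiset.replicate k 𝒞.inf)| ≤ C * X.w := by
  obtain ⟨C2, hC2, h2⟩ := B'_Z 𝒞 mmax emax hb
  refine ⟨C2, hC2, ?_⟩
  intro X E k hadm
  have e2 := h2 X k (classOne X k) E (classOne_ne_zero X k)
    (by rw [classOne_Z, add_comm]; exact hadm)
  rw [classOne_Z] at e2
  rw [X.B'_comm E]
  exact e2

/-- **Half of the parallelogram law, in a context.**  `A = E_x, Bp = E_y, Bm = E_{-y}, S = E_{x+y}, D = E_{x-y}`, all of degree `e0`: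
`ζ*(S) ≈ ζ*(S + e0 ∞) ≈ ζ*(A + Bp) = ζ*(A) + ζ*(Bp) + B'(A,Bp)`, same for `D`, and
`B'(A,Bp) + B'(A,Bm) = B'(A, Bp + Bm) ≈ B'(A, 2 e0 ∞) ≈ 0`. -/
theorem para_ctx (hb : 𝒞.Big mmax emax) (e0 m : ℕ) (hm : 2 * m ≤ emax) (he0 : 2 * e0 ≤ m) :
    ∃ C : ℝ, 0 ≤ C ∧
    ∀ (X : Ctx 𝒞 mmax emax) (A Bp Bm S D : Multiset 𝒞.Pt), 𝒞.inf ∈ X.P →
    (∀ Q ∈ A, Q ∈ X.P) → (∀ Q ∈ Bp, Q ∈ X.P) → (∀ Q ∈ Bm, Q ∈ X.P) → (∀ Q ∈ S, Q ∈ X.P) →
    (∀ Q ∈ D, Q ∈ X.P) →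
    Multiset.card A = e0 → Multiset.card Bp = e0 → Multiset.card Bm = e0 →
    Multiset.card S = e0 → Multiset.card D = e0 →
    X.KLin m (S + Multiset.replicate e0 𝒞.inf) (A + Bp) →
    X.KLin m (D + Multiset.replicate e0 𝒞.inf) (A + Bm) →
    X.KLin m (Bp + Bm) (Multiset.replicate (2 * e0) 𝒞.inf) →
    |X.zs S + X.zs D - 2 * X.zs A - X.zs Bp - X.zs Bm| ≤ C * X.w := by
  obtain ⟨C1, hC1, h1⟩ := zs_klin 𝒞 mmax emax hb m hm
  obtain ⟨C2, hC2, h2⟩ := B'_klin 𝒞 mmax emax hb m hm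
  obtain ⟨C3, hC3, h3⟩ := zs_add_inf 𝒞 mmax emax hb
  obtain ⟨C4, hC4, h4⟩ := B'_inf 𝒞 mmax emax hb
  refine ⟨2 * C1 + C2 + 2 * C3 + C4, by positivity, ?_⟩
  intro X A Bp Bm S D hinf hA hBp hBm hS hD cA cBp cBm cS cD k1 k2 k3
  have hrep : ∀ k, ∀ Q ∈ Multiset.replicate k 𝒞.inf, Q ∈ X.P := fun k => class_mem_rep hinf k
  have a1 := h1 X _ _ (class_mem_add hS (hrep e0)) (class_mem_add hA hBp) k1
  have a2 := h1 X _ _ (class_mem_add hD (hrep e0)) (class_mem_add hA hBm) k2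
  have b1 := h3 X S e0 ⟨by rw [Multiset.card_add, Multiset.card_replicate, cS]; omega,
    class_mem_add hS (hrep e0)⟩
  have b2 := h3 X D e0 ⟨by rw [Multiset.card_add, Multiset.card_replicate, cD]; omega,
    class_mem_add hD (hrep e0)⟩
  have c1 := h2 X _ _ A (class_mem_add hBp hBm) (hrep (2 * e0)) hA (by omega) k3
  have d1 := h4 X A (2 * e0) ⟨by rw [Multiset.card_add, Multiset.card_replicate, cA]; omega,
    class_mem_add hA (hrep (2 * e0))⟩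
  rw [X.zs_add A Bp] at a1
  rw [X.zs_add A Bm] at a2
  rw [X.B'_add_left, X.B'_comm Bp A, X.B'_comm Bm A, X.B'_comm _ A] at c1
  rw [abs_le] at a1 a2 b1 b2 c1 d1 ⊢
  constructor <;> linarith

end Fermat.Agent.S17
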