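import Fermat.Agent.S17.GB.DatumG

set_option autoImplicit false

/-!
# S17 / GB : contexts (a number field over which a finite configuration is defined) and the functions `eta`, `tau`, `B`, `pairs`, `zs`
-/

namespace Fermat.Agent.S17

open HL Height

namespace CurveDatum

variable (𝒞 : CurveDatum)

/-- all `U m E` with `m ≤ mmax`, `|E| ≤ emax`, `supp E ⊆ P` are defined over `K`. -/
def KGood {K : Type} [Field K] (φ : K →+* Qb) (mmax emax : ℕ) (P : Set 𝒞.Pt) : Prop :=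
  ∀ m ≤ mmax, ∀ E : Multiset 𝒞.Pt, Multiset.card E ≤ emax → (∀ Q ∈ E, Q ∈ P) →
    DefinedOver φ (𝒞.U m E)

/-- `m_* = 2 a + 1 + c0` -/
def ms : ℕ := 2 * 𝒞.a + 1 + 𝒞.c0

end CurveDatum

/-- a number field `K ⊆ Qb` over which everything of size `≤ (mmax, emax)` supported on `P` is defined. -/
structure Ctx (𝒞 : CurveDatum) (mmax emax : ℕ) where
  K : Type
  [fK : Field K]
  [nK : NumberField K]
  φ : K →+* Qb
  P : Set 𝒞.Pt
  good : 𝒞.KGood φ mmax emax P

attribute [instance] Ctx.fK Ctx.nK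

/-- **Existence of contexts** (`exists_numberField`; the multisets of cardinality `≤ emax` supported on a finite set are finitely
many). -/
theorem exists_ctx (𝒞 : CurveDatum) (mmax emax : ℕ) (P : Set 𝒞.Pt) (hP : P.Finite)
    (s : Finset Qb) :
    ∃ X : Ctx 𝒞 mmax emax, X.P = P ∧ ∀ x ∈ s, x ∈ Set.range X.φ := by
  classical
  let M : Multiset 𝒞.Pt := emax • hP.toFinset.val
  have hfin : {E : Multiset 𝒞.Pt | Multiset.card E ≤ emax ∧ ∀ Q ∈ E, Q ∈ P}.Finite := by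
    refine (Set.finite_Icc (0 : Multiset 𝒞.Pt) M).subset ?_
    rintro E ⟨h1, h2⟩
    refine ⟨Multiset.zero_le _, ?_⟩
    rw [Multiset.le_iff_count]
    intro a
    by_cases ha : a ∈ E
    · have hc : Multiset.count a M = emax := by
        have h3 : a ∈ hP.toFinset.val := by
          rw [Finset.mem_val, Set.Finite.mem_toFinset]
          exact h2 a ha
        rw [Multiset.count_nsmul, Multiset.count_eq_one_of_mem hP.toFinset.nodup h3, mul_one]
      rw [hc]
      exact (Multiset.count_le_card a E).trans h1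
    · rw [Multiset.count_eq_zero_of_notMem ha]
      exact Nat.zero_le _
  have := hfin.to_subtype
  obtain ⟨K, hK, hdef, hs⟩ := exists_numberField
    (ι := Fin (mmax + 1) × {E : Multiset 𝒞.Pt | Multiset.card E ≤ emax ∧ ∀ Q ∈ E, Q ∈ P})
    (fun i => 𝒞.d i.1) (fun i => 𝒞.U i.1 i.2.1) s
  have : NumberField K := { to_charZero := inferInstance, to_finiteDimensional := hK }
  refine ⟨{ K := K, φ := algebraMap K Qb, P := P, good := ?_ }, rfl, ?_⟩
  · intro m hm E hE hEP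
    exact hdef (⟨m, Nat.lt_succ_of_le hm⟩, ⟨E, hE, hEP⟩)
  · intro x hx
    exact ⟨⟨x, hs x hx⟩, rfl⟩

namespace Ctx

variable {𝒞 : CurveDatum} {mmax emax : ℕ} (X : Ctx 𝒞 mmax emax)

/-- the degree `[K : ℚ]` -/
noncomputable def w : ℝ := (Module.finrank ℚ X.K : ℝ)

theorem w_pos : 0 < X.w := by
  have : 0 < Module.finrank ℚ X.K := Module.finrank_pos
  unfold w
  exact_mod_cast this

/-- admissible divisors -/
def Adm (E : Multiset 𝒞.Pt) : Prop := Multiset.card E ≤ emax ∧ ∀ Q ∈ E, Q ∈ X.P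

noncomputable def H (m : ℕ) (E : Multiset 𝒞.Pt) : ℝ := 𝒞.Hgt X.φ m E

/-- `D_Q H (m, E)` -/
noncomputable def Dq (m : ℕ) (E : Multiset 𝒞.Pt) (Q : 𝒞.Pt) : ℝ := X.H m (Q ::ₘ E) - X.H m E

noncomputable def eta (Q : 𝒞.Pt) : ℝ := X.H (𝒞.a + 1) {Q} - X.H 𝒞.a {Q}

noncomputable def tau (Q Q' : 𝒞.Pt) : ℝ := X.Dq (𝒞.a + 1) {Q'} Q - (𝒞.a + 1 : ℕ) * X.eta Q

noncomputable def taus (Q Q' : 𝒞.Pt) : ℝ := (X.tau Q Q' + X.tau Q' Q) / 2

noncomputable def etaE (E : Multiset 𝒞.Pt) : ℝ := (E.map X.eta).sum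

noncomputable def B (E E' : Multiset 𝒞.Pt) : ℝ :=
  (E.map fun Q => (E'.map fun Q' => X.taus Q Q').sum).sum

noncomputable def diag (E : Multiset 𝒞.Pt) : ℝ := (E.map fun Q => X.taus Q Q).sum

noncomputable def pairs (E : Multiset 𝒞.Pt) : ℝ := (X.B E E - X.diag E) / 2

/-- the polar form of `zs` -/
noncomputable def B' (E E' : Multiset 𝒞.Pt) : ℝ :=
  X.B E E' + Multiset.card E' * X.etaE E + Multiset.card E * X.etaE E'

/-- `ζ*(E) = (|E| + g - 1) η(E) + pairs(E)` -/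
noncomputable def zs (E : Multiset 𝒞.Pt) : ℝ :=
  ((Multiset.card E : ℝ) + 𝒞.g - 1) * X.etaE E + X.pairs E

end Ctx

end Fermat.Agent.S17
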