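import Fermat.Agent.S17.GB.Ctx

set_option autoImplicit false

/-!
# S17 / GB : (G1), (G2) in a context, with constants uniform in all the (finitely many) shapes `≤ mmax`
-/

namespace Fermat.Agent.S17

open HL Height

variable (𝒞 : CurveDatum) (mmax emax : ℕ)

theorem Ctx.Adm.mono {𝒞 : CurveDatum} {mmax emax : ℕ} {X : Ctx 𝒞 mmax emax}
    {E E' : Multiset 𝒞.Pt} (h : X.Adm E') (hle : E ≤ E') : X.Adm E :=
  ⟨(Multiset.card_le_card hle).trans h.1, fun Q hQ => h.2 Q (Multiset.mem_of_le hle hQ)⟩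

theorem Ctx.definedOver {𝒞 : CurveDatum} {mmax emax : ℕ} (X : Ctx 𝒞 mmax emax) {m : ℕ}
    (hm : m ≤ mmax) {E : Multiset 𝒞.Pt} (hE : X.Adm E) : DefinedOver X.φ (𝒞.U m E) :=
  X.good m hm E hE.1 hE.2

/-- maximum of the constants of `G2_datum` over the finitely many `(m, e, m', e')` with `m + m' ≤ mmax`. -/
theorem ctx_G2 : ∃ C : ℝ, 0 ≤ C ∧ ∀ (X : Ctx 𝒞 mmax emax) (m m' : ℕ) (E E' : Multiset 𝒞.Pt)
    (Q : 𝒞.Pt), m + m' ≤ mmax → X.Adm (Q ::ₘ (E + E')) →
    Multiset.card E + 𝒞.a ≤ m → Multiset.card E' + 𝒞.a ≤ m' →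
    m + Multiset.card E' + 𝒞.c0 ≤ m' + Multiset.card E →
    |X.Dq (m + m') (E + E') Q - X.Dq m E Q - X.Dq m' E' Q| ≤ C * X.w := by
  classical
  let c : ℕ → ℕ → ℕ → ℕ → ℝ := fun m e m' e' =>
    if h : e + 𝒞.a ≤ m ∧ e' + 𝒞.a ≤ m' ∧ m + e' + 𝒞.c0 ≤ m' + e then
      (𝒞.G2_datum m e m' e' h.1 h.2.1 h.2.2).choose else 0
  have hc0 : ∀ m e m' e', 0 ≤ c m e m' e' := by
    intro m e m' e'
    simp only [c]
    split_ifs with h
    · exact (𝒞.G2_datum m e m' e' h.1 h.2.1 h.2.2).choose_spec.1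
    · exact le_rfl
  let R := Finset.range (mmax + 1)
  refine ⟨∑ m ∈ R, ∑ e ∈ R, ∑ m' ∈ R, ∑ e' ∈ R, c m e m' e',
    Finset.sum_nonneg fun _ _ => Finset.sum_nonneg fun _ _ => Finset.sum_nonneg fun _ _ =>
      Finset.sum_nonneg fun _ _ => hc0 _ _ _ _, ?_⟩
  intro X m m' E E' Q hmm hadm h1 h2 h3
  have hm : m ∈ R := Finset.mem_range.mpr (by omega)
  have hm' : m' ∈ R := Finset.mem_range.mpr (by omega)
  have he : Multiset.card E ∈ R := Finset.mem_range.mpr (by omega)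
  have he' : Multiset.card E' ∈ R := Finset.mem_range.mpr (by omega)
  have hle : c m (Multiset.card E) m' (Multiset.card E') ≤
      ∑ m ∈ R, ∑ e ∈ R, ∑ m' ∈ R, ∑ e' ∈ R, c m e m' e' := by
    calc c m (Multiset.card E) m' (Multiset.card E')
        ≤ ∑ e' ∈ R, c m (Multiset.card E) m' e' :=
          Finset.single_le_sum (f := fun e' => c m (Multiset.card E) m' e')
            (fun _ _ => hc0 _ _ _ _) he'
      _ ≤ ∑ m' ∈ R, ∑ e' ∈ R, c m (Multiset.card E) m' e' :=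
          Finset.single_le_sum (f := fun m' => ∑ e' ∈ R, c m (Multiset.card E) m' e')
            (fun _ _ => Finset.sum_nonneg fun _ _ => hc0 _ _ _ _) hm'
      _ ≤ ∑ e ∈ R, ∑ m' ∈ R, ∑ e' ∈ R, c m e m' e' :=
          Finset.single_le_sum (f := fun e => ∑ m' ∈ R, ∑ e' ∈ R, c m e m' e')
            (fun _ _ => Finset.sum_nonneg fun _ _ => Finset.sum_nonneg fun _ _ => hc0 _ _ _ _) he
      _ ≤ _ :=
          Finset.single_le_sum (f := fun m => ∑ e ∈ R, ∑ m' ∈ R, ∑ e' ∈ R, c m e m' e')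
            (fun _ _ => Finset.sum_nonneg fun _ _ => Finset.sum_nonneg fun _ _ =>
              Finset.sum_nonneg fun _ _ => hc0 _ _ _ _) hm
  have hcond : Multiset.card E + 𝒞.a ≤ m ∧ Multiset.card E' + 𝒞.a ≤ m' ∧
      m + Multiset.card E' + 𝒞.c0 ≤ m' + Multiset.card E := ⟨h1, h2, h3⟩
  have hceq : c m (Multiset.card E) m' (Multiset.card E') =
      (𝒞.G2_datum m _ m' _ h1 h2 h3).choose := by
    simp only [c]
    rw [dif_pos hcond]
  have hEE : E + E' ≤ Q ::ₘ (E + E') := Multiset.le_cons_self _ _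
  have hE : E ≤ E + E' := Multiset.le_add_right _ _
  have hE' : E' ≤ E + E' := Multiset.le_add_left _ _
  have key := (𝒞.G2_datum m _ m' _ h1 h2 h3).choose_spec.2 X.K X.φ E E' Q rfl rfl
    (X.definedOver (by omega) (hadm.mono (hE.trans hEE)))
    (X.definedOver (by omega) (hadm.mono (Multiset.cons_le_cons Q hE)))
    (X.definedOver (by omega) (hadm.mono (hE'.trans hEE)))
    (X.definedOver (by omega) (hadm.mono (Multiset.cons_le_cons Q hE')))
    (X.definedOver hmm (hadm.mono hEE))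
    (X.definedOver hmm hadm)
  rw [← hceq] at key
  refine le_trans key ?_
  exact mul_le_mul_of_nonneg_right hle X.w_pos.le

/-- maximum of the constants of `G1_datum`. -/
theorem ctx_G1 : ∃ C : ℝ, 0 ≤ C ∧ ∀ (X : Ctx 𝒞 mmax emax) (j m : ℕ) (a : Fin (𝒞.d j) → X.K)
    (E : Multiset 𝒞.Pt), a ≠ 0 → j + m ≤ mmax → X.Adm E →
    Multiset.card E + 𝒞.c0 ≤ m →
    |X.H (j + m) (𝒞.Z j (fun i => X.φ (a i)) + E) - X.H m E
      - ((𝒞.d m : ℝ) - Multiset.card E) * logHeight a| ≤ C * X.w := by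
  classical
  let c : ℕ → ℕ → ℕ → ℝ := fun j m e =>
    if h : e + 𝒞.c0 ≤ m then (𝒞.G1_datum j m e h).choose else 0
  have hc0 : ∀ j m e, 0 ≤ c j m e := by
    intro j m e
    simp only [c]
    split_ifs with h
    · exact (𝒞.G1_datum j m e h).choose_spec.1
    · exact le_rfl
  let R := Finset.range (mmax + 1)
  refine ⟨∑ j ∈ R, ∑ m ∈ R, ∑ e ∈ R, c j m e,
    Finset.sum_nonneg fun _ _ => Finset.sum_nonneg fun _ _ => Finset.sum_nonneg fun _ _ =>
      hc0 _ _ _, ?_⟩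
  intro X j m a E ha hjm hadm h1
  have hj : j ∈ R := Finset.mem_range.mpr (by omega)
  have hm : m ∈ R := Finset.mem_range.mpr (by omega)
  have he : Multiset.card E ∈ R := Finset.mem_range.mpr (by omega)
  have hle : c j m (Multiset.card E) ≤ ∑ j ∈ R, ∑ m ∈ R, ∑ e ∈ R, c j m e := by
    calc c j m (Multiset.card E)
        ≤ ∑ e ∈ R, c j m e :=
          Finset.single_le_sum (f := fun e => c j m e) (fun _ _ => hc0 _ _ _) he
      _ ≤ ∑ m ∈ R, ∑ e ∈ R, c j m e :=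
          Finset.single_le_sum (f := fun m => ∑ e ∈ R, c j m e)
            (fun _ _ => Finset.sum_nonneg fun _ _ => hc0 _ _ _) hm
      _ ≤ _ :=
          Finset.single_le_sum (f := fun j => ∑ m ∈ R, ∑ e ∈ R, c j m e)
            (fun _ _ => Finset.sum_nonneg fun _ _ => Finset.sum_nonneg fun _ _ => hc0 _ _ _) hj
  have hceq : c j m (Multiset.card E) = (𝒞.G1_datum j m _ h1).choose := by
    simp only [c]
    rw [dif_pos h1]
  have key := ((𝒞.G1_datum j m _ h1).choose_spec.2 X.K X.φ a E ha rfl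
    (X.definedOver (by omega) hadm)).2
  rw [← hceq] at key
  refine le_trans key ?_
  exact mul_le_mul_of_nonneg_right hle X.w_pos.le

end Fermat.Agent.S17
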