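import Fermat.Agent.S17.Datum

set_option autoImplicit false

/-!
# S17 / GB : (G1) and (G2) for a curve datum
-/

namespace Fermat.Agent.S17

open HL Height

namespace CurveDatum

variable (𝒞 : CurveDatum)

/-- `a = g + c0 + 1` : the smallest admissible value of `m - |E|` in (G2). -/
def a : ℕ := 𝒞.g + 𝒞.c0 + 1

/-- `U m 0` is everything. -/
theorem U_zero (m : ℕ) : 𝒞.U m 0 = ⊤ := by
  ext s
  simp only [𝒞.mem_U, Submodule.mem_top, iff_true]
  exact Or.inr (Multiset.zero_le _)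

/-- minors of the standard basis -/
theorem dg_std_minor {K : Type} [Field K] (v : AbsoluteValue K ℝ) (n : ℕ) (f : Fin n → Fin n) :
    v (minors (fun i : Fin n => (Pi.single i 1 : Fin n → K)) f) ≤ 1 := by
  classical
  have hM : (Matrix.of fun i k => (Pi.single i 1 : Fin n → K) (f k)) =
      (1 : Matrix (Fin n) (Fin n) K).submatrix id f := by
    ext i k
    simp [Matrix.one_apply, Pi.single_apply, eq_comm]
  unfold minors
  rw [hM]
  by_cases hf : Function.Injective f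
  · have hb : Function.Bijective f := Finite.injective_iff_bijective.mp hf
    have h1 : ((1 : Matrix (Fin n) (Fin n) K).submatrix id f) =
        (1 : Matrix (Fin n) (Fin n) K).submatrix id (Equiv.ofBijective f hb) := rfl
    rw [h1, Matrix.det_permute', Matrix.det_one, mul_one]
    rcases Int.units_eq_one_or (Equiv.Perm.sign (Equiv.ofBijective f hb)) with h | h
    · rw [h]; simp
    · rw [h]; simp
  · have : ∃ k k', f k = f k' ∧ k ≠ k' := by
      simpa [Function.Injective] using hf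
    obtain ⟨k, k', hkk, hne⟩ := this
    rw [Matrix.det_zero_of_column_eq hne (by intro i; rw [Matrix.submatrix_apply, Matrix.submatrix_apply, hkk])]
    simp

theorem dg_std_minor_id {K : Type} [Field K] (n : ℕ) :
    minors (fun i : Fin n => (Pi.single i 1 : Fin n → K)) id = 1 := by
  classical
  have hM : (Matrix.of fun i k => (Pi.single i 1 : Fin n → K) (id k)) =
      (1 : Matrix (Fin n) (Fin n) K) := by
    ext i k
    simp [Matrix.one_apply, Pi.single_apply, eq_comm]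
  unfold minors
  rw [hM, Matrix.det_one]

theorem dg_std_basis {K : Type} [Field K] (φ : K →+* Qb) (n : ℕ) :
    IsBasisOf φ (fun i : Fin n => (Pi.single i 1 : Fin n → K)) ⊤ := by
  classical
  constructor
  · have := (Pi.basisFun K (Fin n)).linearIndependent
    convert this using 1
    funext i
    simp
  · have h1 : (fun i : Fin n => (fun k => φ ((Pi.single i 1 : Fin n → K) k))) =
        ⇑(Pi.basisFun Qb (Fin n)) := by
      funext i k
      simp [Pi.single_apply, apply_ite φ]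
    rw [h1]
    exact (Pi.basisFun Qb (Fin n)).span_eq

theorem dg_HK_top {K : Type} [Field K] [NumberField K] (φ : K →+* Qb) (n : ℕ) :
    HK φ (⊤ : Submodule Qb (Fin n → Qb)) = 0 := by
  rw [HK_eq φ (dg_std_basis φ n)]
  have hne : minors (fun i : Fin n => (Pi.single i 1 : Fin n → K)) ≠ 0 := by
    intro h
    have := congrFun h id
    rw [dg_std_minor_id] at this
    exact _root_.one_ne_zero this
  have hA := isLoc_nrm hne
  have hB : IsLoc (K := K) (fun v => v 1) 0 := isLoc_apply _root_.one_ne_zero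
  have hnrm : ∀ v : AbsoluteValue K ℝ,
      nrm v (minors (fun i : Fin n => (Pi.single i 1 : Fin n → K))) = v 1 := by
    intro v
    rw [map_one]
    apply le_antisymm
    · exact nrm_le zero_le_one (fun f => dg_std_minor v n f)
    · have := le_nrm v (minors (fun i : Fin n => (Pi.single i 1 : Fin n → K))) id
      rwa [dg_std_minor_id, map_one] at this
  apply le_antisymm
  · exact hA.le hB (fun v _ => (hnrm v).le)
  · exact hB.le hA (fun v _ => (hnrm v).ge)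

/-- the full space is defined over any field and has height `0` (basis = standard basis, minors `∈ {0, 1, -1}`). -/
theorem Hgt_zero {K : Type} [Field K] [NumberField K] (φ : K →+* Qb) (m : ℕ) :
    𝒞.Hgt φ m 0 = 0 := by
  unfold Hgt
  rw [U_zero]
  exact dg_HK_top φ _

theorem Hgt_nonneg {K : Type} [Field K] [NumberField K] (φ : K →+* Qb) (m : ℕ)
    (E : Multiset 𝒞.Pt) : 0 ≤ 𝒞.Hgt φ m E := by
  unfold Hgt HK
  split_ifs
  · exact logHeight_nonneg _
  · exact le_rfl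

theorem U_anti (m : ℕ) {E E' : Multiset 𝒞.Pt} (h : E ≤ E') : 𝒞.U m E' ≤ 𝒞.U m E := by
  intro s hs
  rw [𝒞.mem_U] at hs ⊢
  exact hs.imp id (fun h' => h.trans h')

/-- products -/
theorem mul_mem_U (m m' : ℕ) {E E' : Multiset 𝒞.Pt} {s : Fin (𝒞.d m) → Qb}
    {s' : Fin (𝒞.d m') → Qb} (hs : s ∈ 𝒞.U m E) (hs' : s' ∈ 𝒞.U m' E') :
    (𝒞.T m m').mul s s' ∈ 𝒞.U (m + m') (E + E') := by
  rw [𝒞.mem_U] at hs hs' ⊢
  by_cases h0 : s = 0
  · left
    rw [h0]
    exact LinearMap.map_zero₂ ((𝒞.T m m').bil (K := Qb)) s'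
  by_cases h0' : s' = 0
  · left
    rw [h0']
    exact ((𝒞.T m m').bil (K := Qb) s).map_zero
  right
  rw [𝒞.Z_mul m m' s s' h0 h0']
  exact add_le_add (hs.resolve_left h0) (hs'.resolve_left h0')

/-- `a * U m E = U (j + m) (Z a + E)`. -/
theorem mem_U_Z_add (j m : ℕ) (a : Fin (𝒞.d j) → Qb) (ha : a ≠ 0) (E : Multiset 𝒞.Pt)
    (t : Fin (𝒞.d (j + m)) → Qb) :
    t ∈ 𝒞.U (j + m) (𝒞.Z j a + E) ↔ ∃ s ∈ 𝒞.U m E, t = (𝒞.T j m).mul a s := by
  constructor
  · intro ht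
    rw [𝒞.mem_U] at ht
    by_cases h0 : t = 0
    · exact ⟨0, Submodule.zero_mem _, by rw [h0]; exact (((𝒞.T j m).bil (K := Qb) a).map_zero).symm⟩
    have hle := ht.resolve_left h0
    obtain ⟨s, hs⟩ := 𝒞.exists_div j m a t ha h0 ((Multiset.le_add_right _ _).trans hle)
    have hs0 : s ≠ 0 := by
      rintro rfl
      exact h0 (by rw [hs]; exact ((𝒞.T j m).bil (K := Qb) a).map_zero)
    refine ⟨s, ?_, hs⟩
    rw [𝒞.mem_U]
    right
    rw [hs, 𝒞.Z_mul j m a s ha hs0] at hle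
    exact (add_le_add_iff_left _).mp hle
  · rintro ⟨s, hs, rfl⟩
    exact 𝒞.mul_mem_U j m ((𝒞.mem_U j _ a).mpr (Or.inr le_rfl)) hs

theorem T_noZeroDiv (m m' : ℕ) : (𝒞.T m m').NoZeroDiv := by
  intro a b h
  by_contra hc
  rw [not_or] at hc
  exact 𝒞.mul_ne_zero m m' a b hc.1 hc.2 h

theorem dg_map_mul {K : Type} [Field K] (φ : K →+* Qb) {d₁ d₂ d₃ : ℕ} (T : Tab d₁ d₂ d₃)
    (a : Fin d₁ → K) (b : Fin d₂ → K) :
    (fun l => φ (T.mul a b l)) = T.mul (fun i => φ (a i)) (fun i => φ (b i)) := by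
  funext l
  exact (T.mul_map φ a b l).symm

theorem dg_map_ne_zero {K : Type} [Field K] (φ : K →+* Qb) {n : ℕ} {a : Fin n → K} (ha : a ≠ 0) :
    (fun i => φ (a i)) ≠ 0 := by
  intro h
  apply ha
  funext i
  have := congrFun h i
  exact (map_eq_zero φ).mp this

/-- completing a basis by a vector outside. -/
theorem dg_isBasisOf_consRow {K : Type} [Field K] (φ : K →+* Qb) {r n : ℕ}
    {W : Fin r → Fin n → K} {UW U : Submodule Qb (Fin n → Qb)} (hW : IsBasisOf φ W UW)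
    (hle : UW ≤ U) (hr : Module.finrank Qb U = r + 1) (t : Fin n → K)
    (ht : (fun k => φ (t k)) ∈ U) (ht' : (fun k => φ (t k)) ∉ UW) :
    IsBasisOf φ (consRow t W) U := by
  have hind : LinearIndependent K (consRow t W) := by
    unfold consRow
    rw [linearIndependent_finCons]
    exact ⟨hW.1, fun hmem => ht' ((hW.mem_rsp_iff φ _).1 hmem)⟩
  refine ⟨hind, ?_⟩
  apply Submodule.eq_of_le_of_finrank_eq
  · apply Submodule.span_le.2
    rintro _ ⟨a, rfl⟩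
    refine Fin.cases ?_ (fun b => ?_) a
    · exact ht
    · apply hle
      rw [← hW.2]
      exact Submodule.subset_span ⟨b, rfl⟩
  · rw [finrank_span_eq_card ((linearIndependent_map_iff φ _).2 hind), Fintype.card_fin, hr]

theorem dg_head_not_mem {K : Type} [Field K] (φ : K →+* Qb) {r n : ℕ}
    {W : Fin r → Fin n → K} {UW U : Submodule Qb (Fin n → Qb)} (hW : IsBasisOf φ W UW)
    {t : Fin n → K} (h : IsBasisOf φ (consRow t W) U) :
    (fun k => φ (t k)) ∈ U ∧ (fun k => φ (t k)) ∉ UW := by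
  constructor
  · rw [← h.2]
    exact Submodule.subset_span ⟨0, rfl⟩
  · intro hmem
    have h1 := h.1
    unfold consRow at h1
    rw [linearIndependent_finCons] at h1
    exact h1.2 ((hW.mem_rsp_iff φ _).2 hmem)

theorem dg_finrank_prod_le {K : Type} [Field K] (φ : K →+* Qb) {dj n n3 r : ℕ} (Tj : Tab dj n n3)
    {S : Fin r → Fin n → K} {U : Submodule Qb (Fin n → Qb)} (hS : IsBasisOf φ S U)
    (U3 : Submodule Qb (Fin n3 → Qb)) (h : ∀ a, ∀ u ∈ U, Tj.mul a u ∈ U3) :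
    Module.finrank K (Tj.prod ⊤ (rsp S)) ≤ Module.finrank Qb U3 := by
  rw [← Tab.span_fam, ← finrank_span_map φ (Tj.fam S)]
  apply Submodule.finrank_mono
  apply Submodule.span_le.2
  rintro _ ⟨p, rfl⟩
  show (fun k => φ (Tj.mul _ _ k)) ∈ U3
  rw [dg_map_mul]
  apply h
  rw [← hS.2]
  exact Submodule.subset_span ⟨p.2, rfl⟩

theorem dg_count_eq {α : Type} [DecidableEq α] {Q : α} {E Z : Multiset α} (h : E ≤ Z)
    (h' : ¬ Q ::ₘ E ≤ Z) : Z.count Q = E.count Q := by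
  apply le_antisymm _ (Multiset.count_le_of_le Q h)
  by_contra hlt
  apply h'
  rw [Multiset.le_iff_count]
  intro b
  by_cases hb : b = Q
  · subst hb
    rw [Multiset.count_cons_self]
    omega
  · rw [Multiset.count_cons_of_ne hb]
    exact Multiset.count_le_of_le b h

/-- **(G1) for the datum.** If `S` is a `K`-basis of `U m E` then `(a * S_i)` is a `K`-basis of `U (j+m) (Z a + E)` (`mem_U_Z_add`);
`HK_eq` + `G1_global`. -/
theorem G1_datum (j m e : ℕ) (he : e + 𝒞.c0 ≤ m) : ∃ C : ℝ, 0 ≤ C ∧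
    ∀ (K : Type) [Field K] [NumberField K] (φ : K →+* Qb) (a : Fin (𝒞.d j) → K)
      (E : Multiset 𝒞.Pt), a ≠ 0 → Multiset.card E = e → DefinedOver φ (𝒞.U m E) →
      DefinedOver φ (𝒞.U (j + m) (𝒞.Z j (fun i => φ (a i)) + E)) ∧
      |𝒞.Hgt φ (j + m) (𝒞.Z j (fun i => φ (a i)) + E) - 𝒞.Hgt φ m E
          - ((𝒞.d m : ℝ) - e) * logHeight a| ≤ C * Module.finrank ℚ K := by
  obtain ⟨C, hC⟩ := G1_global (𝒞.T j m) (𝒞.T_noZeroDiv j m) (𝒞.d m - e)
  refine ⟨|C|, abs_nonneg C, ?_⟩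
  intro K _ _ φ a E ha hE hdef
  obtain ⟨r', S, hS⟩ := hdef
  have hfr := 𝒞.finrank_U m E (by rw [hE]; exact he)
  rw [hS.finrank_eq φ, hE] at hfr
  obtain rfl : r' = 𝒞.d m - e := by omega
  have hφa : (fun i => φ (a i)) ≠ 0 := dg_map_ne_zero φ ha
  have hmapfam : (fun i => (fun k => φ ((𝒞.T j m).mul a (S i) k))) =
      ((𝒞.T j m).bil (K := Qb) (fun i => φ (a i))) ∘ (fun i => (fun k => φ (S i k))) := by
    funext i
    exact dg_map_mul φ _ a (S i)
  have hker : LinearMap.ker ((𝒞.T j m).bil (K := Qb) (fun i => φ (a i))) = ⊥ := by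
    rw [LinearMap.ker_eq_bot']
    intro b hb
    exact (𝒞.T_noZeroDiv j m _ b hb).resolve_left hφa
  have hbasis : IsBasisOf φ (fun i => (𝒞.T j m).mul a (S i))
      (𝒞.U (j + m) (𝒞.Z j (fun i => φ (a i)) + E)) := by
    constructor
    · rw [← linearIndependent_map_iff φ, hmapfam]
      exact ((linearIndependent_map_iff φ S).2 hS.1).map' _ hker
    · rw [hmapfam, Set.range_comp, Submodule.span_image, hS.2]
      ext t
      rw [𝒞.mem_U_Z_add j m _ hφa, Submodule.mem_map]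
      constructor
      · rintro ⟨s, hs, rfl⟩
        exact ⟨s, hs, rfl⟩
      · rintro ⟨s, hs, rfl⟩
        exact ⟨s, hs, rfl⟩
  refine ⟨⟨_, _, hbasis⟩, ?_⟩
  have h1 := hC K a S ha hS.1
  unfold Hgt
  rw [HK_eq φ hbasis, HK_eq φ hS]
  have hcast : ((𝒞.d m - e : ℕ) : ℝ) = (𝒞.d m : ℝ) - e := by
    rw [Nat.cast_sub (by omega)]
  rw [hcast] at h1
  have h2 : Hmat (fun i => (𝒞.T j m).mul a (S i)) - Hmat S - ((𝒞.d m : ℝ) - e) * logHeight a =
      Hmat (fun i => (𝒞.T j m).mul a (S i)) - ((𝒞.d m : ℝ) - e) * logHeight a - Hmat S := by ring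
  rw [h2]
  exact h1.trans (mul_le_mul_of_nonneg_right (le_abs_self C) (Nat.cast_nonneg _))

/-- **(G2) for the datum.**  `W, W', W''` = `K`-bases of `U m (Q ::ₘ E)`, `U m' (Q ::ₘ E')`, `U (m+m') (Q ::ₘ (E+E'))`; complete the first two by
`s, s'` (`exists_consRow_basis`).  `s s' ∉ U (m+m') (Q ::ₘ (E+E'))` because `count Q (Z s) = count Q E` and `count Q (Z s') = count Q E'`.
Rank conditions: `V j * U m E ≤ U (j+m) E` (with `j = m + c0`, `j' = m' + c0`).  Then `G2_global` with `𝒞.hypUS`. -/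
theorem G2_datum (m e m' e' : ℕ) (h1 : e + 𝒞.a ≤ m) (h2 : e' + 𝒞.a ≤ m')
    (h3 : m + e' + 𝒞.c0 ≤ m' + e) : ∃ C : ℝ, 0 ≤ C ∧
    ∀ (K : Type) [Field K] [NumberField K] (φ : K →+* Qb) (E E' : Multiset 𝒞.Pt) (Q : 𝒞.Pt),
      Multiset.card E = e → Multiset.card E' = e' →
      DefinedOver φ (𝒞.U m E) → DefinedOver φ (𝒞.U m (Q ::ₘ E)) →
      DefinedOver φ (𝒞.U m' E') → DefinedOver φ (𝒞.U m' (Q ::ₘ E')) →
      DefinedOver φ (𝒞.U (m + m') (E + E')) → DefinedOver φ (𝒞.U (m + m') (Q ::ₘ (E + E'))) →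
      |(𝒞.Hgt φ (m + m') (Q ::ₘ (E + E')) - 𝒞.Hgt φ (m + m') (E + E'))
          - (𝒞.Hgt φ m (Q ::ₘ E) - 𝒞.Hgt φ m E)
          - (𝒞.Hgt φ m' (Q ::ₘ E') - 𝒞.Hgt φ m' E')| ≤ C * Module.finrank ℚ K := by
  classical
  unfold a at h1 h2
  have hdm := 𝒞.d_eq m (by omega)
  have hdm' := 𝒞.d_eq m' (by omega)
  have hdmm := 𝒞.d_eq (m + m') (by omega)
  have hdj := 𝒞.d_eq ((m + 𝒞.c0) + m) (by omega)
  have hdj' := 𝒞.d_eq ((m' + 𝒞.c0) + m') (by omega)
  have hyp := 𝒞.hypUS m e m' e' (m + 𝒞.c0) (m' + 𝒞.c0) ((𝒞.d m - e - 1) + 1)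
    (𝒞.d ((m + 𝒞.c0) + m) - e) ((𝒞.d m' - e' - 1) + 1) (𝒞.d ((m' + 𝒞.c0) + m') - e')
    ((𝒞.d (m + m') - e - e' - 1) + 1) (by omega) le_rfl (by omega) le_rfl h3
    (by omega) (by omega) (by omega) (by omega) (by omega)
  obtain ⟨C, hC⟩ := G2_global (𝒞.T (m + 𝒞.c0) m) (𝒞.T (m' + 𝒞.c0) m') (𝒞.T m m')
    (𝒞.d m - e - 1) (𝒞.d ((m + 𝒞.c0) + m) - e) (𝒞.d m' - e' - 1) (𝒞.d ((m' + 𝒞.c0) + m') - e')
    (𝒞.d (m + m') - e - e' - 1) hyp
  refine ⟨|C|, abs_nonneg C, ?_⟩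
  intro K _ _ φ E E' Q hE hE' dU dUQ dU' dUQ' dU'' dUQ''
  -- dimensions
  have fU := 𝒞.finrank_U m E (by omega)
  have fUQ := 𝒞.finrank_U m (Q ::ₘ E) (by rw [Multiset.card_cons]; omega)
  have fU' := 𝒞.finrank_U m' E' (by omega)
  have fUQ' := 𝒞.finrank_U m' (Q ::ₘ E') (by rw [Multiset.card_cons]; omega)
  have fU'' := 𝒞.finrank_U (m + m') (E + E') (by rw [Multiset.card_add]; omega)
  have fUQ'' := 𝒞.finrank_U (m + m') (Q ::ₘ (E + E'))
    (by rw [Multiset.card_cons, Multiset.card_add]; omega)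
  have fJ := 𝒞.finrank_U ((m + 𝒞.c0) + m) E (by omega)
  have fJ' := 𝒞.finrank_U ((m' + 𝒞.c0) + m') E' (by omega)
  rw [Multiset.card_cons] at fUQ fUQ' fUQ''
  rw [Multiset.card_add] at fU'' fUQ''
  obtain ⟨r₀, W, hW⟩ := dUQ
  obtain ⟨r₀', W', hW'⟩ := dUQ'
  obtain ⟨r₀'', W'', hW''⟩ := dUQ''
  have e0 := hW.finrank_eq φ
  have e0' := hW'.finrank_eq φ
  have e0'' := hW''.finrank_eq φ
  obtain rfl : r₀ = 𝒞.d m - e - 1 := by omega
  obtain rfl : r₀' = 𝒞.d m' - e' - 1 := by omega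
  obtain rfl : r₀'' = 𝒞.d (m + m') - e - e' - 1 := by omega
  obtain ⟨s, hs⟩ := exists_consRow_basis φ hW dU (𝒞.U_anti m (Multiset.le_cons_self E Q)) (by omega)
  obtain ⟨s', hs'⟩ := exists_consRow_basis φ hW' dU' (𝒞.U_anti m' (Multiset.le_cons_self E' Q))
    (by omega)
  obtain ⟨hsU, hsUQ⟩ := dg_head_not_mem φ hW hs
  obtain ⟨hsU', hsUQ'⟩ := dg_head_not_mem φ hW' hs'
  have hs0 : (fun k => φ (s k)) ≠ 0 := fun h => hsUQ (by rw [h]; exact Submodule.zero_mem _)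
  have hs0' : (fun k => φ (s' k)) ≠ 0 := fun h => hsUQ' (by rw [h]; exact Submodule.zero_mem _)
  have hZ1 : E ≤ 𝒞.Z m (fun k => φ (s k)) := ((𝒞.mem_U _ _ _).mp hsU).resolve_left hs0
  have hZ1' : E' ≤ 𝒞.Z m' (fun k => φ (s' k)) := ((𝒞.mem_U _ _ _).mp hsU').resolve_left hs0'
  have hZ2 : ¬ Q ::ₘ E ≤ 𝒞.Z m (fun k => φ (s k)) :=
    fun h => hsUQ ((𝒞.mem_U _ _ _).mpr (Or.inr h))
  have hZ2' : ¬ Q ::ₘ E' ≤ 𝒞.Z m' (fun k => φ (s' k)) :=
    fun h => hsUQ' ((𝒞.mem_U _ _ _).mpr (Or.inr h))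
  have hc := dg_count_eq hZ1 hZ2
  have hc' := dg_count_eq hZ1' hZ2'
  have hprodU : (fun k => φ ((𝒞.T m m').mul s s' k)) ∈ 𝒞.U (m + m') (E + E') := by
    rw [dg_map_mul]
    exact 𝒞.mul_mem_U m m' hsU hsU'
  have hprodUQ : (fun k => φ ((𝒞.T m m').mul s s' k)) ∉ 𝒞.U (m + m') (Q ::ₘ (E + E')) := by
    rw [dg_map_mul, 𝒞.mem_U]
    rintro (h | h)
    · exact 𝒞.mul_ne_zero m m' _ _ hs0 hs0' h
    · rw [𝒞.Z_mul m m' _ _ hs0 hs0'] at h
      have := Multiset.count_le_of_le Q h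
      rw [Multiset.count_cons_self, Multiset.count_add, Multiset.count_add, hc, hc'] at this
      omega
  have hs'' : IsBasisOf φ (consRow ((𝒞.T m m').mul s s') W'') (𝒞.U (m + m') (E + E')) :=
    dg_isBasisOf_consRow φ hW'' (𝒞.U_anti _ (Multiset.le_cons_self _ Q)) (by omega) _ hprodU hprodUQ
  have hρ : Module.finrank K ((𝒞.T (m + 𝒞.c0) m).prod ⊤ (rsp (consRow s W))) ≤
      𝒞.d ((m + 𝒞.c0) + m) - e := by
    refine (dg_finrank_prod_le φ _ hs (𝒞.U ((m + 𝒞.c0) + m) E) ?_).trans (by omega)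
    intro b u hu
    have := 𝒞.mul_mem_U (m + 𝒞.c0) m (E := 0) (s := b) (by rw [U_zero]; trivial) hu
    rwa [zero_add] at this
  have hρ' : Module.finrank K ((𝒞.T (m' + 𝒞.c0) m').prod ⊤ (rsp (consRow s' W'))) ≤
      𝒞.d ((m' + 𝒞.c0) + m') - e' := by
    refine (dg_finrank_prod_le φ _ hs' (𝒞.U ((m' + 𝒞.c0) + m') E') ?_).trans (by omega)
    intro b u hu
    have := 𝒞.mul_mem_U (m' + 𝒞.c0) m' (E := 0) (s := b) (by rw [U_zero]; trivial) hu
    rwa [zero_add] at this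
  have hp1 : ∀ w ∈ rsp W, ∀ u' ∈ rsp (consRow s' W'), (𝒞.T m m').mul w u' ∈ rsp W'' := by
    intro w hw u' hu'
    rw [hW''.mem_rsp_iff φ, dg_map_mul, ← Multiset.cons_add]
    exact 𝒞.mul_mem_U m m' ((hW.mem_rsp_iff φ _).1 hw) ((hs'.mem_rsp_iff φ _).1 hu')
  have hp2 : ∀ u ∈ rsp (consRow s W), ∀ w' ∈ rsp W', (𝒞.T m m').mul u w' ∈ rsp W'' := by
    intro u hu w' hw'
    rw [hW''.mem_rsp_iff φ, dg_map_mul, ← Multiset.add_cons]
    exact 𝒞.mul_mem_U m m' ((hs.mem_rsp_iff φ _).1 hu) ((hW'.mem_rsp_iff φ _).1 hw')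
  have hfin := hC K W s W' s' W'' hs.1 hs'.1 hs''.1 hρ hρ' hp1 hp2
  unfold Hgt
  rw [HK_eq φ hW, HK_eq φ hW', HK_eq φ hW'', HK_eq φ hs, HK_eq φ hs', HK_eq φ hs'']
  exact hfin.trans (mul_le_mul_of_nonneg_right (le_abs_self C) (Nat.cast_nonneg _))

end CurveDatum

end Fermat.Agent.S17
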