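import Fermat.Agent.S17.GB.North

set_option autoImplicit false

/-!
# S17 / GB : the main theorem of the height chapter
-/

namespace Fermat.Agent.S17

open HL Height

variable {𝒞 : CurveDatum} {Γ : Type} [AddCommGroup Γ] {e0 m1 : ℕ}

/-- `hQ` is bounded below (`zQ_ge`). -/
theorem hQ_ge (𝒟 : DivFamily 𝒞 Γ e0 m1) (M : ℕ) (hM : (𝒞.a + 1) * e0 + 𝒞.ms ≤ M) :
    ∃ C : ℝ, ∀ x : Γ, - C ≤ 𝒟.hQ M x := by
  obtain ⟨C, hC⟩ := zQ_ge 𝒞 e0 M hM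
  refine ⟨2 * C, fun x => ?_⟩
  have h1 := hC _ (𝒟.rat x) (𝒟.card x)
  have h2 := hC _ (𝒟.rat (-x)) (𝒟.card (-x))
  unfold DivFamily.hQ
  linarith

/-- **Northcott for `hQ`.**  `hQ x ≤ B` ⟹ `zQ (E_x), zQ (E_{-x}) ≤ B + C` (`zQ_ge`) ⟹ (`residual_small`, `M' = (a+1) M + m_*`) `Z u = E_x + E'` with
`r N(E') ≤ B'`; `zQ M' E' ≤ B''` (`zQ_residual`); so `H_ℚ(M',E') = zQ M' E' + (d M' - |E'|) N(E')` is bounded and `E'` lies in a finite set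
(`finite_rat_divisors`, `|E'| = M - e0`); `x ↦ E'` is injective by `𝒟.inj` (`LinEq M (E_x) (E_y)` with `R = E'`). -/
theorem hQ_northcott (𝒟 : DivFamily 𝒞 Γ e0 m1) (M : ℕ)
    (hM : (𝒞.a + 1) * e0 + 𝒞.ms ≤ M) (B : ℝ) : {x : Γ | 𝒟.hQ M x ≤ B}.Finite := by
  obtain ⟨hM1, hM2, hM3⟩ := sc_d_gt 𝒞 e0 M hM
  obtain ⟨hN1, hN2, hN3⟩ := sc_d_gt 𝒞 M ((𝒞.a + 1) * M + 𝒞.ms) le_rfl
  set M' := (𝒞.a + 1) * M + 𝒞.ms with hM'
  obtain ⟨C0, hC0⟩ := zQ_ge 𝒞 e0 M hM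
  obtain ⟨C1, h1⟩ := residual_small 𝒞 e0 M M' hM le_rfl
  obtain ⟨C2, h2⟩ := zQ_residual 𝒟 M M' hM le_rfl
  choose u E' hu hZ hrat hle using fun x => h1 (𝒟.Ediv x) (𝒟.rat x) (𝒟.card x)
  have hcard : ∀ x, Multiset.card (E' x) = M - e0 := by
    intro x
    have hcZ := 𝒞.card_Z M _ (sc_cst_ne_zero (hu x))
    rw [hZ x, Multiset.card_add, 𝒟.card x] at hcZ
    omega
  have hr : (0 : ℝ) < (𝒞.d M : ℝ) - e0 := by
    have : (e0 : ℝ) < 𝒞.d M := by exact_mod_cast hM2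
    linarith
  have hr' : (0 : ℝ) ≤ (𝒞.d M' : ℝ) - ((M - e0 : ℕ) : ℝ) := by
    have : ((M - e0 : ℕ) : ℝ) ≤ 𝒞.d M' := by exact_mod_cast (by omega : M - e0 ≤ 𝒞.d M')
    linarith
  have hfin := finite_rat_divisors 𝒞 (M - e0) M' (by omega)
    (B + C0 + C2 + ((𝒞.d M' : ℝ) - ((M - e0 : ℕ) : ℝ)) * ((B + C0 + C1) / ((𝒞.d M : ℝ) - e0)))
  refine Set.Finite.of_injOn (f := E') ?_ ?_ hfin
  · intro x hx
    have hx' : 𝒟.hQ M x ≤ B := hx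
    unfold DivFamily.hQ at hx'
    have a1 := hC0 _ (𝒟.rat x) (𝒟.card x)
    have a2 := hC0 _ (𝒟.rat (-x)) (𝒟.card (-x))
    refine ⟨hrat x, hcard x, ?_⟩
    have b1 := hle x
    have b2 := h2 x (u x) (E' x) (hu x) (hZ x) (hrat x)
    rw [abs_le] at b2
    set N := 𝒞.HgtQ (M' + 1) (E' x) - 𝒞.HgtQ M' (E' x) with hN
    have hNle : N ≤ (B + C0 + C1) / ((𝒞.d M : ℝ) - e0) := by
      rw [le_div_iff₀ hr]
      linarith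
    have hz : 𝒞.zQ M' (E' x) = 𝒞.HgtQ M' (E' x) - ((𝒞.d M' : ℝ) - ((M - e0 : ℕ) : ℝ)) * N := by
      unfold CurveDatum.zQ
      rw [hcard x]
    have := mul_le_mul_of_nonneg_left hNle hr'
    linarith [b2.2]
  · intro x _ y _ hxy
    have hxy' : E' x = E' y := hxy
    apply 𝒟.inj M x y
    exact ⟨cst (u x), cst (u y), E' x, sc_cst_ne_zero (hu x), sc_cst_ne_zero (hu y), hZ x,
      by rw [hxy']; exact hZ y⟩

/-- **Main theorem of the height chapter.** -/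
theorem HT_main (𝒟 : DivFamily 𝒞 Γ e0 m1) (he0 : 2 * e0 ≤ m1) (he1 : 1 ≤ m1) :
    ∃ h : Γ → ℝ, (∀ x, 0 ≤ h x) ∧
      (∃ C : ℝ, ∀ x y, |h (x + y) + h (x - y) - 2 * (h x + h y)| ≤ C) ∧
      ∀ B : ℝ, {x | h x ≤ B}.Finite := by
  set M := (𝒞.a + 1) * e0 + 𝒞.ms with hMdef
  obtain ⟨C0, hC0⟩ := hQ_ge 𝒟 M le_rfl
  obtain ⟨C1, hC1⟩ := para 𝒟 he0 he1 M le_rfl
  refine ⟨fun x => 𝒟.hQ M x + C0, fun x => by have := hC0 x; linarith, ⟨C1 + 2 * |C0|, ?_⟩, ?_⟩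
  · intro x y
    have h1 := hC1 x y
    have : 𝒟.hQ M (x + y) + C0 + (𝒟.hQ M (x - y) + C0) - 2 * (𝒟.hQ M x + C0 + (𝒟.hQ M y + C0))
        = (𝒟.hQ M (x + y) + 𝒟.hQ M (x - y) - 2 * (𝒟.hQ M x + 𝒟.hQ M y)) + (-(2 * C0)) := by ring
    rw [this]
    refine (abs_add_le _ _).trans ?_
    rw [abs_neg, abs_mul]
    have : |(2 : ℝ)| = 2 := by norm_num
    rw [this]
    linarith
  · intro B
    refine (hQ_northcott 𝒟 M le_rfl (B - C0)).subset ?_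
    intro x hx
    have hx' : 𝒟.hQ M x + C0 ≤ B := hx
    show 𝒟.hQ M x ≤ B - C0
    linarith

/-- **Descent**: `Γ` is finitely generated as soon as `Γ / 2 Γ` is finite. -/
theorem fg_of_divFamily (𝒟 : DivFamily 𝒞 Γ e0 m1) (he0 : 2 * e0 ≤ m1)
    (he1 : 1 ≤ m1) (H : (nsmulAddMonoidHom (α := Γ) 2).range.FiniteIndex) : AddGroup.FG Γ := by
  obtain ⟨h, h0, ⟨C, hC⟩, hN⟩ := HT_main 𝒟 he0 he1
  have : Northcott h := ⟨hN⟩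
  exact AddCommGroup.fg_of_descent' H h0 hC

end Fermat.Agent.S17
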