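import Fermat.Agent.S17.GB.Rat

set_option autoImplicit false

/-!
# S17 / GB : the quasi-parallelogram law over `ℚ`
-/

namespace Fermat.Agent.S17

open HL Height

/-- The hypotheses on the family of divisors `Ediv x` representing the classes `x ∈ Γ`. -/
structure DivFamily (𝒞 : CurveDatum) (Γ : Type) [AddCommGroup Γ] (e0 m1 : ℕ) where
  Ediv : Γ → Multiset 𝒞.Pt
  card : ∀ x, Multiset.card (Ediv x) = e0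
  rat : ∀ x, 𝒞.IsRat (Ediv x)
  add : ∀ x y, 𝒞.LinEq m1 (Ediv (x + y) + Multiset.replicate e0 𝒞.inf) (Ediv x + Ediv y)
  neg : ∀ x, 𝒞.LinEq m1 (Ediv x + Ediv (-x)) (Multiset.replicate (2 * e0) 𝒞.inf)
  inj : ∀ m x y, 𝒞.LinEq m (Ediv x) (Ediv y) → x = y

variable {𝒞 : CurveDatum} {Γ : Type} [AddCommGroup Γ] {e0 m1 : ℕ}

/-- the height on `Γ` -/
noncomputable def DivFamily.hQ (𝒟 : DivFamily 𝒞 Γ e0 m1) (M : ℕ) (x : Γ) : ℝ :=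
  𝒞.zQ M (𝒟.Ediv x) + 𝒞.zQ M (𝒟.Ediv (-x))

/-- half of the law:  `ζ(E_{x+y}) + ζ(E_{x-y}) ≈ 2 ζ(E_x) + ζ(E_y) + ζ(E_{-y})`.  Given `x, y`: take the witnesses of `add x y`, `add x (-y)`,
`neg y`; `P` = all points occurring (and `∞`), `s` = all coordinates of the witnesses; `exists_ctx` with `emax = 2 m1`,
`mmax` = any value with `Big` and `M + 1 ≤ mmax`; `klin_of_linEq`, `para_ctx`, `zQ_approx`; divide by `w > 0`. -/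
theorem para_half (𝒟 : DivFamily 𝒞 Γ e0 m1) (he0 : 2 * e0 ≤ m1) (he1 : 1 ≤ m1) (M : ℕ)
    (hM : (𝒞.a + 1) * e0 + 𝒞.ms ≤ M) : ∃ C : ℝ, ∀ x y : Γ,
    |𝒞.zQ M (𝒟.Ediv (x + y)) + 𝒞.zQ M (𝒟.Ediv (x - y)) - 2 * 𝒞.zQ M (𝒟.Ediv x)
      - 𝒞.zQ M (𝒟.Ediv y) - 𝒞.zQ M (𝒟.Ediv (-y))| ≤ C := by
  classical
  obtain ⟨emax, hemax⟩ : ∃ emax, emax = 2 * m1 := ⟨_, rfl⟩
  obtain ⟨mmax, hmmax⟩ : ∃ mmax, mmax = 2 * 𝒞.ms + 𝒞.c0 + ((𝒞.a + 2) * emax + 𝒞.ms + 1) + (M + 1) :=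
    ⟨_, rfl⟩
  have hb : 𝒞.Big mmax emax := ⟨by omega, by omega, by omega⟩
  obtain ⟨C₁, hC₁, hpara⟩ := para_ctx 𝒞 mmax emax hb e0 m1 (by omega) he0
  obtain ⟨C₂, hC₂, hz⟩ := zQ_approx 𝒞 mmax emax hb
  refine ⟨C₁ + 6 * C₂, ?_⟩
  intro x y
  obtain ⟨a₁, a₁', R₁, ha₁, ha₁', hZ₁, hZ₁'⟩ := 𝒟.add x y
  obtain ⟨a₂, a₂', R₂, ha₂, ha₂', hZ₂, hZ₂'⟩ := 𝒟.add x (-y)
  obtain ⟨a₃, a₃', R₃, ha₃, ha₃', hZ₃, hZ₃'⟩ := 𝒟.neg y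
  rw [← sub_eq_add_neg] at hZ₂
  let tot : Multiset 𝒞.Pt := 𝒞.inf ::ₘ (𝒟.Ediv x + 𝒟.Ediv y + 𝒟.Ediv (-y) + 𝒟.Ediv (x + y)
    + 𝒟.Ediv (x - y) + R₁ + R₂ + R₃)
  let P : Set 𝒞.Pt := {Q | Q ∈ tot}
  have hP : P.Finite := tot.toFinset.finite_toSet.subset (fun Q hQ => by
    have hQ' : Q ∈ tot := hQ
    simpa using hQ')
  let s : Finset Qb := Finset.univ.image a₁ ∪ Finset.univ.image a₁' ∪ Finset.univ.image a₂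
    ∪ Finset.univ.image a₂' ∪ Finset.univ.image a₃ ∪ Finset.univ.image a₃'
  obtain ⟨X, hXP, hXs⟩ := exists_ctx 𝒞 mmax emax P hP s
  have hmem : ∀ Q, Q ∈ tot → Q ∈ X.P := fun Q hQ => by rw [hXP]; exact hQ
  have hinf : 𝒞.inf ∈ X.P := hmem _ (by simp [tot])
  have hx : ∀ Q ∈ 𝒟.Ediv x, Q ∈ X.P := fun Q hQ => hmem _ (by
    simp only [tot, Multiset.mem_cons, Multiset.mem_add]; tauto)
  have hy : ∀ Q ∈ 𝒟.Ediv y, Q ∈ X.P := fun Q hQ => hmem _ (by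
    simp only [tot, Multiset.mem_cons, Multiset.mem_add]; tauto)
  have hny : ∀ Q ∈ 𝒟.Ediv (-y), Q ∈ X.P := fun Q hQ => hmem _ (by
    simp only [tot, Multiset.mem_cons, Multiset.mem_add]; tauto)
  have hxy : ∀ Q ∈ 𝒟.Ediv (x + y), Q ∈ X.P := fun Q hQ => hmem _ (by
    simp only [tot, Multiset.mem_cons, Multiset.mem_add]; tauto)
  have hxmy : ∀ Q ∈ 𝒟.Ediv (x - y), Q ∈ X.P := fun Q hQ => hmem _ (by
    simp only [tot, Multiset.mem_cons, Multiset.mem_add]; tauto)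
  have hR₁ : ∀ Q ∈ R₁, Q ∈ X.P := fun Q hQ => hmem _ (by
    simp only [tot, Multiset.mem_cons, Multiset.mem_add]; tauto)
  have hR₂ : ∀ Q ∈ R₂, Q ∈ X.P := fun Q hQ => hmem _ (by
    simp only [tot, Multiset.mem_cons, Multiset.mem_add]; tauto)
  have hR₃ : ∀ Q ∈ R₃, Q ∈ X.P := fun Q hQ => hmem _ (by
    simp only [tot, Multiset.mem_cons, Multiset.mem_add]; tauto)
  have K1 := klin_of_linEq 𝒞 mmax emax X m1 _ _ a₁ a₁' R₁ ha₁ ha₁' hZ₁ hZ₁' hR₁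
    (fun i => hXs _ (by simp [s])) (fun i => hXs _ (by simp [s]))
  have K2 := klin_of_linEq 𝒞 mmax emax X m1 _ _ a₂ a₂' R₂ ha₂ ha₂' hZ₂ hZ₂' hR₂
    (fun i => hXs _ (by simp [s])) (fun i => hXs _ (by simp [s]))
  have K3 := klin_of_linEq 𝒞 mmax emax X m1 _ _ a₃ a₃' R₃ ha₃ ha₃' hZ₃ hZ₃' hR₃
    (fun i => hXs _ (by simp [s])) (fun i => hXs _ (by simp [s]))
  have h0 := hpara X (𝒟.Ediv x) (𝒟.Ediv y) (𝒟.Ediv (-y)) (𝒟.Ediv (x + y)) (𝒟.Ediv (x - y)) hinf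
    hx hy hny hxy hxmy (𝒟.card _) (𝒟.card _) (𝒟.card _) (𝒟.card _) (𝒟.card _) K1 K2 K3
  have hzz : ∀ z : Γ, (∀ Q ∈ 𝒟.Ediv z, Q ∈ X.P) →
      |X.w * 𝒞.zQ M (𝒟.Ediv z) - X.zs (𝒟.Ediv z)| ≤ C₂ * X.w := by
    intro z hzP
    refine hz X _ (𝒟.rat z) ⟨by rw [𝒟.card]; omega, hzP⟩ M (by rw [𝒟.card]; exact hM) (by omega)
  have h1 := hzz x hx
  have h2 := hzz y hy
  have h3 := hzz (-y) hny
  have h4 := hzz (x + y) hxy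
  have h5 := hzz (x - y) hxmy
  have hw := X.w_pos
  have key : X.w * |𝒞.zQ M (𝒟.Ediv (x + y)) + 𝒞.zQ M (𝒟.Ediv (x - y)) - 2 * 𝒞.zQ M (𝒟.Ediv x)
      - 𝒞.zQ M (𝒟.Ediv y) - 𝒞.zQ M (𝒟.Ediv (-y))| ≤ X.w * (C₁ + 6 * C₂) := by
    rw [← abs_of_pos hw, ← abs_mul, abs_of_pos hw]
    rw [abs_le] at *
    constructor <;> nlinarith [h0.1, h0.2, h1.1, h1.2, h2.1, h2.2, h3.1, h3.2, h4.1, h4.2, h5.1, h5.2]
  exact le_of_mul_le_mul_left key hw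

/-- **Quasi-parallelogram law**: `para_half` for `(x, y)` and `(-x, -y)`. -/
theorem para (𝒟 : DivFamily 𝒞 Γ e0 m1) (he0 : 2 * e0 ≤ m1) (he1 : 1 ≤ m1) (M : ℕ)
    (hM : (𝒞.a + 1) * e0 + 𝒞.ms ≤ M) : ∃ C : ℝ, ∀ x y : Γ,
    |𝒟.hQ M (x + y) + 𝒟.hQ M (x - y) - 2 * (𝒟.hQ M x + 𝒟.hQ M y)| ≤ C := by
  obtain ⟨C, hC⟩ := para_half 𝒟 he0 he1 M hM
  refine ⟨C + C, ?_⟩
  intro x y
  have h1 := hC x y
  have h2 := hC (-x) (-y)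
  have e1 : -x + -y = -(x + y) := by abel
  have e2 : -x - -y = -(x - y) := by abel
  rw [e1, e2, neg_neg] at h2
  unfold DivFamily.hQ
  rw [abs_le] at *
  constructor <;> linarith [h1.1, h1.2, h2.1, h2.2]

end Fermat.Agent.S17
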