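import Fermat.Agent.S17.HL.Glob

set_option autoImplicit false

/-!
# S17 / GB : Northcott for projective space over `ℚ` (Mathlib only)
-/

namespace Fermat.Agent.S17

open HL Height

/-- **Northcott for projective space over `ℚ`**: up to scaling there are finitely many rational vectors of bounded height.
(Normalise a non zero coordinate to `1`; every coordinate `x` of the normalised vector has `mulHeight₁ x ≤ mulHeight`
(`Height.mulHeight₁_eq_mulHeight`, `mulHeight_comp_le`); Northcott for `mulHeight₁` on `ℚ`.) -/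
theorem finite_proj_rat (d : ℕ) (B : ℝ) : ∃ s : Set (Fin d → ℚ), s.Finite ∧
    ∀ x : Fin d → ℚ, x ≠ 0 → logHeight x ≤ B → ∃ y ∈ s, ∃ c : ℚ, c ≠ 0 ∧ x = c • y := by
  refine ⟨Set.pi Set.univ fun _ => {q : ℚ | logHeight₁ q ≤ B},
    Set.Finite.pi fun _ => NumberField.finite_setOfPred_logHeight₁_le ℚ B, ?_⟩
  intro x hx hB
  obtain ⟨i, hi⟩ := Function.ne_iff.mp hx
  have hi' : x i ≠ 0 := hi
  refine ⟨(x i)⁻¹ • x, ?_, x i, hi', ?_⟩
  · intro j _
    change logHeight₁ (((x i)⁻¹ • x) j) ≤ B
    rw [logHeight₁_eq_logHeight]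
    have e : ![((x i)⁻¹ • x) j, 1] = ((x i)⁻¹ • x) ∘ ![j, i] := by
      funext a
      fin_cases a
      · rfl
      · simp [inv_mul_cancel₀ hi']
    rw [e]
    refine (logHeight_comp_le _ _).trans ?_
    rw [logHeight_smul_eq_logHeight _ (inv_ne_zero hi')]
    exact hB
  · rw [smul_smul, mul_inv_cancel₀ hi', one_smul]

end Fermat.Agent.S17
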