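import Fermat.Agent.S17.GB.SiegelC
import Fermat.Agent.S17.GB.PolyHeight
import Fermat.Agent.S17.GB.Para

set_option autoImplicit false

/-!
# S17 / GB : Northcott (helper25's argument: Siegel twice, no pencil)
-/

namespace Fermat.Agent.S17

open HL Height

theorem north_cst_smul {ι : Type} (c : ℚ) (y : ι → ℚ) : cst (c • y) = ((c : ℚ) : Qb) • cst y := by
  funext i
  simp [cst]

theorem north_cst_ne_zero {ι : Type} {y : ι → ℚ} (hy : y ≠ 0) : cst y ≠ 0 := by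
  intro h
  apply hy
  funext i
  have h1 := congrFun h i
  simpa [cst] using h1

variable (𝒞 : CurveDatum)

/-- **Rational effective divisors with bounded `H_ℚ(M', ·)` are finitely many.**  `exists_small_section` at `(M', E')` gives a rational
`u' ≠ 0` with `E' ≤ Z u'` and `h(u') ≤ B / r' + log r'`; `finite_proj_rat`; `Z` is invariant under scaling (`Z_smul`); a multiset has
finitely many sub-multisets. -/
theorem finite_rat_divisors (e' M' : ℕ) (hM' : e' + 𝒞.c0 + 𝒞.g ≤ M') (B : ℝ) :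
    {E' : Multiset 𝒞.Pt | 𝒞.IsRat E' ∧ Multiset.card E' = e' ∧ 𝒞.HgtQ M' E' ≤ B}.Finite := by
  have hd := 𝒞.d_eq M' (by omega)
  set r : ℝ := (𝒞.d M' : ℝ) - e' with hr
  have hr1 : (1 : ℝ) ≤ r := by
    have h1 : e' + 1 ≤ 𝒞.d M' := by omega
    have h2 : ((e' + 1 : ℕ) : ℝ) ≤ (𝒞.d M' : ℝ) := by exact_mod_cast h1
    rw [hr]
    push_cast at h2
    linarith
  have hr0 : 0 < r := by linarith
  obtain ⟨s, hs, hs'⟩ := finite_proj_rat (𝒞.d M') (B / r + Real.log r)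
  have hfin : (⋃ y ∈ s, {E' : Multiset 𝒞.Pt | E' ∈ (𝒞.Z M' (cst y)).powerset}).Finite :=
    hs.biUnion fun y _ => Multiset.finite_toSet _
  refine hfin.subset ?_
  rintro E' ⟨hE, hcard, hB⟩
  obtain ⟨u, E'', hu, hZ, -, hle⟩ := exists_small_section 𝒞 M' E' hE (by omega)
  rw [hcard, ← hr] at hle
  have hlog : logHeight u ≤ B / r + Real.log r := by
    have h1 : r * logHeight u ≤ r * (B / r + Real.log r) := by
      rw [mul_add, mul_div_cancel₀ _ hr0.ne']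
      linarith
    exact le_of_mul_le_mul_left h1 hr0
  obtain ⟨y, hy, c, hc, rfl⟩ := hs' u hu hlog
  rw [Set.mem_iUnion₂]
  refine ⟨y, hy, ?_⟩
  show E' ∈ (𝒞.Z M' (cst y)).powerset
  rw [Multiset.mem_powerset]
  rw [north_cst_smul, 𝒞.Z_smul M' _ _ (by exact_mod_cast hc)] at hZ
  rw [hZ]
  exact Multiset.le_add_right _ _

variable {𝒞} {Γ : Type} [AddCommGroup Γ] {e0 m1 : ℕ}

/-- the residual divisor `E'` of a section `u ∈ U M (E_x)` is linearly equivalent to `E_{-x} + (M - 2 e0) ∞`, witnessed in `V (M + m1)`: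
with `(a, a', R)` the witnesses of `𝒟.neg x`:  `Z (u a') = E' + R'`, `Z (1_M a) = E_{-x} + (M - 2 e0) ∞ + R'`, `R' = E_x + R + 2 e0 ∞`. -/
theorem linEq_residual (𝒟 : DivFamily 𝒞 Γ e0 m1) (M : ℕ) (hM : 2 * e0 ≤ M) (x : Γ)
    (u : Fin (𝒞.d M) → Qb) (hu : u ≠ 0) (E' : Multiset 𝒞.Pt) (hZ : 𝒞.Z M u = 𝒟.Ediv x + E') :
    𝒞.LinEq (M + m1) E' (𝒟.Ediv (-x) + Multiset.replicate (M - 2 * e0) 𝒞.inf) := by
  obtain ⟨a, a', R, ha, ha', h1, h2⟩ := 𝒟.neg x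
  have hone : cst (𝒞.one M) ≠ 0 := north_cst_ne_zero (𝒞.one_ne_zero M)
  refine ⟨(𝒞.T M m1).mul u a', (𝒞.T M m1).mul (cst (𝒞.one M)) a,
    𝒟.Ediv x + R + Multiset.replicate (2 * e0) 𝒞.inf, 𝒞.mul_ne_zero _ _ _ _ hu ha',
    𝒞.mul_ne_zero _ _ _ _ hone ha, ?_, ?_⟩
  · rw [𝒞.Z_mul _ _ _ _ hu ha', hZ, h2]
    abel
  · rw [𝒞.Z_mul _ _ _ _ hone ha, 𝒞.Z_one, h1]
    have h3 : Multiset.replicate M 𝒞.inf =
        Multiset.replicate (M - 2 * e0) 𝒞.inf + Multiset.replicate (2 * e0) 𝒞.inf := by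
      rw [← Multiset.replicate_add]
      congr 1
      omega
    rw [h3]
    abel

/-- **class invariance over `ℚ`**: `ζ_ℚ(M', E') ≈ ζ_ℚ(M, E_{-x})`.  Context (`emax = 2 (M + m1)`) containing all points and the coordinates of
the witnesses of `linEq_residual`; `klin_of_linEq`, `zs_klin`, `zs_add_inf`, `zQ_approx` (twice); divide by `w`. -/
theorem zQ_residual (𝒟 : DivFamily 𝒞 Γ e0 m1) (M M' : ℕ) (hM : (𝒞.a + 1) * e0 + 𝒞.ms ≤ M)
    (hM' : (𝒞.a + 1) * M + 𝒞.ms ≤ M') : ∃ C : ℝ, ∀ (x : Γ) (u : Fin (𝒞.d M) → ℚ)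
    (E' : Multiset 𝒞.Pt), u ≠ 0 → 𝒞.Z M (cst u) = 𝒟.Ediv x + E' → 𝒞.IsRat E' →
    |𝒞.zQ M' E' - 𝒞.zQ M (𝒟.Ediv (-x))| ≤ C := by
  classical
  set emax := 2 * (M + m1) with hemax
  set mmax := 2 * 𝒞.ms + 𝒞.c0 + ((𝒞.a + 2) * emax + 𝒞.ms + 1) + (M' + 1) + (M + 1) with hmmax
  have ha1 : 1 ≤ 𝒞.a := by unfold CurveDatum.a; omega
  have hms : 1 ≤ 𝒞.ms := by unfold CurveDatum.ms; omega
  have h2e : 2 * e0 ≤ M := by
    have : 2 * e0 ≤ (𝒞.a + 1) * e0 := Nat.mul_le_mul_right _ (by omega)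
    omega
  have hM1 : 1 ≤ M := by omega
  have hb : 𝒞.Big mmax emax := ⟨by omega, by omega, by omega⟩
  obtain ⟨C1, hC1, H1⟩ := zs_klin 𝒞 mmax emax hb (M + m1) le_rfl
  obtain ⟨C2, hC2, H2⟩ := zs_add_inf 𝒞 mmax emax hb
  obtain ⟨C3, hC3, H3⟩ := zQ_approx 𝒞 mmax emax hb
  refine ⟨C1 + C2 + 2 * C3, ?_⟩
  intro x u E' hu hZ hE'
  have hu' : cst u ≠ 0 := north_cst_ne_zero hu
  have hcard : e0 + Multiset.card E' = M := by
    have h1 := 𝒞.card_Z M (cst u) hu'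
    rw [hZ, Multiset.card_add, 𝒟.card] at h1
    exact h1
  obtain ⟨A, A', R, hA, hA', hZA, hZA'⟩ := linEq_residual 𝒟 M h2e x (cst u) hu' E' hZ
  set k := M - 2 * e0 with hk
  set tot : Multiset 𝒞.Pt := E' + (𝒟.Ediv (-x) + Multiset.replicate k 𝒞.inf) + R with htot
  obtain ⟨X, hXP, hXs⟩ := exists_ctx 𝒞 mmax emax {Q | Q ∈ tot} (Multiset.finite_toSet tot)
    (Finset.univ.image A ∪ Finset.univ.image A')
  have hP : ∀ E : Multiset 𝒞.Pt, E ≤ tot → ∀ Q ∈ E, Q ∈ X.P := by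
    intro E hE Q hQ
    rw [hXP]
    exact Multiset.mem_of_le hE hQ
  have le1 : E' ≤ tot := by
    rw [htot, add_assoc]
    exact Multiset.le_add_right _ _
  have le2 : 𝒟.Ediv (-x) + Multiset.replicate k 𝒞.inf ≤ tot := by
    rw [htot, add_comm E', add_assoc]
    exact Multiset.le_add_right _ _
  have le3 : R ≤ tot := by
    rw [htot]
    exact Multiset.le_add_left _ _
  have le4 : 𝒟.Ediv (-x) ≤ tot := (Multiset.le_add_right _ _).trans le2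
  have hklin : X.KLin (M + m1) E' (𝒟.Ediv (-x) + Multiset.replicate k 𝒞.inf) :=
    klin_of_linEq 𝒞 mmax emax X (M + m1) _ _ A A' R hA hA' hZA hZA' (hP R le3)
      (fun i => hXs _ (Finset.mem_union_left _ (Finset.mem_image_of_mem _ (Finset.mem_univ i))))
      (fun i => hXs _ (Finset.mem_union_right _ (Finset.mem_image_of_mem _ (Finset.mem_univ i))))
  have b1 := H1 X _ _ (hP _ le1) (hP _ le2) hklin
  have b2 := H2 X (𝒟.Ediv (-x)) k ⟨by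
    rw [Multiset.card_add, 𝒟.card, Multiset.card_replicate]
    omega, hP _ le2⟩
  have b3 := H3 X E' hE' ⟨by omega, hP _ le1⟩ M' (by
    have : (𝒞.a + 1) * Multiset.card E' ≤ (𝒞.a + 1) * M := Nat.mul_le_mul_left _ (by omega)
    omega) (by omega)
  have b4 := H3 X (𝒟.Ediv (-x)) (𝒟.rat (-x)) ⟨by rw [𝒟.card]; omega, hP _ le4⟩ M (by
    rw [𝒟.card]; exact hM) (by omega)
  have hw := X.w_pos
  have key : X.w * |𝒞.zQ M' E' - 𝒞.zQ M (𝒟.Ediv (-x))| ≤ X.w * (C1 + C2 + 2 * C3) := by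
    rw [← abs_of_pos hw, ← abs_mul, abs_of_pos hw]
    have e : X.w * (𝒞.zQ M' E' - 𝒞.zQ M (𝒟.Ediv (-x))) =
        (X.w * 𝒞.zQ M' E' - X.zs E') +
        (X.zs E' - X.zs (𝒟.Ediv (-x) + Multiset.replicate k 𝒞.inf)) +
        (X.zs (𝒟.Ediv (-x) + Multiset.replicate k 𝒞.inf) - X.zs (𝒟.Ediv (-x))) -
        (X.w * 𝒞.zQ M (𝒟.Ediv (-x)) - X.zs (𝒟.Ediv (-x))) := by ring
    rw [e]
    rw [abs_le] at b1 b2 b3 b4 ⊢
    constructor <;> nlinarith [b1.1, b1.2, b2.1, b2.2, b3.1, b3.2, b4.1, b4.2]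
  exact le_of_mul_le_mul_left key hw

end Fermat.Agent.S17
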