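import Fermat.Agent.S17.GB.CtxG

set_option autoImplicit false

/-!
# S17 / GB : the height of a point is linear in `m`
-/

namespace Fermat.Agent.S17

open HL Height

variable (𝒞 : CurveDatum) (mmax emax : ℕ)

theorem Ctx.Dq_zero {𝒞 : CurveDatum} {mmax emax : ℕ} (X : Ctx 𝒞 mmax emax) (m : ℕ) (Q : 𝒞.Pt) :
    X.Dq m 0 Q = X.H m {Q} := by
  unfold Ctx.Dq
  have : X.H m 0 = 0 := 𝒞.Hgt_zero X.φ m
  rw [this, sub_zero]
  rfl

theorem point_add (he : 1 ≤ emax) : ∃ C : ℝ, 0 ≤ C ∧ ∀ (X : Ctx 𝒞 mmax emax) (Q : 𝒞.Pt), Q ∈ X.P →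
    ∀ m m' : ℕ, m + m' ≤ mmax → 𝒞.a ≤ m → m + 𝒞.c0 ≤ m' →
    |X.H (m + m') {Q} - X.H m {Q} - X.H m' {Q}| ≤ C * X.w := by
  obtain ⟨C, hC, hG2⟩ := ctx_G2 𝒞 mmax emax
  refine ⟨C, hC, ?_⟩
  intro X Q hQ m m' h1 h2 h3
  have h := hG2 X m m' 0 0 Q h1
    ⟨by simpa using he, by
      intro R hR
      simp only [add_zero, Multiset.mem_cons, Multiset.notMem_zero, or_false] at hR
      rw [hR]; exact hQ⟩
    (by simpa using h2) (by simp only [Multiset.card_zero]; omega)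
    (by simp only [Multiset.card_zero]; omega)
  rw [add_zero, X.Dq_zero, X.Dq_zero, X.Dq_zero] at h
  exact h

theorem point_linear (he : 1 ≤ emax) (hm : 2 * 𝒞.ms + 𝒞.c0 ≤ mmax) : ∃ C : ℝ, 0 ≤ C ∧
    ∀ (X : Ctx 𝒞 mmax emax) (Q : 𝒞.Pt), Q ∈ X.P → ∀ m : ℕ, 𝒞.ms ≤ m → m ≤ mmax →
    |X.H m {Q} - m * X.eta Q| ≤ C * X.w := by
  obtain ⟨C, hC, hadd⟩ := point_add 𝒞 mmax emax he
  refine ⟨C + 6 * (C * mmax), by positivity, ?_⟩
  intro X Q hQ m hm1 hm2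
  have hw := X.w_pos
  have hms : 𝒞.ms = 2 * 𝒞.a + 1 + 𝒞.c0 := rfl
  -- one step
  have step : ∀ k : ℕ, 𝒞.ms ≤ k → k + 1 ≤ mmax →
      |X.H (k + 1) {Q} - X.H k {Q} - X.eta Q| ≤ 2 * C * X.w := by
    intro k hk1 hk2
    obtain ⟨j, rfl⟩ : ∃ j, k = 𝒞.a + j := ⟨k - 𝒞.a, by omega⟩
    have h1 := hadd X Q hQ (𝒞.a + 1) j (by omega) (by omega) (by omega)
    have h2 := hadd X Q hQ 𝒞.a j (by omega) le_rfl (by omega)
    have e : 𝒞.a + j + 1 = 𝒞.a + 1 + j := by ring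
    rw [e]
    unfold Ctx.eta
    rw [abs_le] at *
    constructor <;> nlinarith [h1.1, h1.2, h2.1, h2.2]
  -- iteration
  have iter : ∀ n : ℕ, 𝒞.ms + n ≤ mmax →
      |X.H (𝒞.ms + n) {Q} - X.H 𝒞.ms {Q} - n * X.eta Q| ≤ n * (2 * C * X.w) := by
    intro n
    induction n with
    | zero => intro _; simp
    | succ n ih =>
      intro hn
      have h1 := ih (by omega)
      have h2 := step (𝒞.ms + n) (by omega) (by omega)
      have e : 𝒞.ms + (n + 1) = 𝒞.ms + n + 1 := by ring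
      rw [e]
      push_cast
      rw [abs_le] at *
      constructor <;> nlinarith [h1.1, h1.2, h2.1, h2.2]
  have iter' : ∀ n : ℕ, 𝒞.ms + n ≤ mmax →
      |X.H (𝒞.ms + n) {Q} - X.H 𝒞.ms {Q} - n * X.eta Q| ≤ 2 * (C * mmax) * X.w := by
    intro n hn
    refine (iter n hn).trans ?_
    have : (n : ℝ) ≤ mmax := by exact_mod_cast (by omega : n ≤ mmax)
    have h0 : 0 ≤ 2 * C * X.w := by positivity
    calc (n : ℝ) * (2 * C * X.w) ≤ mmax * (2 * C * X.w) := by gcongr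
      _ = _ := by ring
  -- the base value
  have hbase : |X.H 𝒞.ms {Q} - 𝒞.ms * X.eta Q| ≤ (C + 4 * (C * mmax)) * X.w := by
    have h1 := hadd X Q hQ 𝒞.ms (𝒞.ms + 𝒞.c0) (by omega) (by omega) le_rfl
    have h2 := iter' (𝒞.ms + 𝒞.c0) (by omega)
    have h3 := iter' 𝒞.c0 (by omega)
    push_cast at h2
    rw [abs_le] at *
    constructor <;> nlinarith [h1.1, h1.2, h2.1, h2.2, h3.1, h3.2]
  obtain ⟨n, rfl⟩ : ∃ n, m = 𝒞.ms + n := ⟨m - 𝒞.ms, by omega⟩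
  have h4 := iter' n hm2
  push_cast
  rw [abs_le] at *
  constructor <;> nlinarith [h4.1, h4.2, hbase.1, hbase.2]

theorem eta_ge (he : 1 ≤ emax) (hm : 2 * 𝒞.ms + 𝒞.c0 ≤ mmax) : ∃ C : ℝ, 0 ≤ C ∧
    ∀ (X : Ctx 𝒞 mmax emax) (Q : 𝒞.Pt), Q ∈ X.P → - (C * X.w) ≤ X.eta Q := by
  obtain ⟨C, hC, hlin⟩ := point_linear 𝒞 mmax emax he hm
  refine ⟨C, hC, ?_⟩
  intro X Q hQ
  have hw := X.w_pos
  have hms : 𝒞.ms = 2 * 𝒞.a + 1 + 𝒞.c0 := rfl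
  have h1 := hlin X Q hQ 𝒞.ms le_rfl (by omega)
  have h2 : 0 ≤ X.H 𝒞.ms {Q} := 𝒞.Hgt_nonneg X.φ _ _
  have h3 : (1 : ℝ) ≤ 𝒞.ms := by exact_mod_cast (by omega : 1 ≤ 𝒞.ms)
  rw [abs_le] at h1
  have h4 : -(C * X.w) ≤ 𝒞.ms * X.eta Q := by linarith [h1.2]
  by_contra hcon
  push Not at hcon
  have h5 : 0 ≤ C * X.w := by positivity
  have h6 : X.eta Q < 0 := by linarith
  nlinarith

end Fermat.Agent.S17
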