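import Fermat.Agent.S17.GB.Struct

set_option autoImplicit false

/-!
# S17 / GB : consequences of (G1): principal divisors are orthogonal to everything
-/

namespace Fermat.Agent.S17

open HL Height

/-- the standing largeness assumptions on `(mmax, emax)` -/
def CurveDatum.Big (𝒞 : CurveDatum) (mmax emax : ℕ) : Prop :=
  2 ≤ emax ∧ 2 * 𝒞.ms + 𝒞.c0 ≤ mmax ∧ (𝒞.a + 2) * emax + 𝒞.ms + 1 ≤ mmax

variable (𝒞 : CurveDatum) (mmax emax : ℕ)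

theorem princ_abs_mul {t x B T : ℝ} (hx : |x| ≤ B) (ht0 : 0 ≤ t) (htT : t ≤ T) :
    |t * x| ≤ T * B := by
  rw [abs_mul, abs_of_nonneg ht0]
  exact mul_le_mul htT hx (abs_nonneg x) (ht0.trans htT)

/-- **(†)**  `j η(E) + (j+m) η(Z) + pairs(Z) + B(Z,E) ≈ (m + 1 - g - |E|) h(a)`, `Z = Z(a)`, for every `m` with
`(a+1)(j + |E|) + m_* ≤ m`, `j + m ≤ mmax`: `ctx_G1` + `struct_thm` for `(j+m, Z+E)` and `(m, E)` + `pairs_add`, `etaE_add`, `d_eq`. -/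
theorem princ_dagger (hb : 𝒞.Big mmax emax) : ∃ C : ℝ, 0 ≤ C ∧
    ∀ (X : Ctx 𝒞 mmax emax) (j : ℕ) (a : Fin (𝒞.d j) → X.K) (E : Multiset 𝒞.Pt), a ≠ 0 →
    X.Adm (𝒞.Z j (fun i => X.φ (a i)) + E) → ∀ m : ℕ,
    (𝒞.a + 1) * (j + Multiset.card E) + 𝒞.ms ≤ m → j + m ≤ mmax →
    |j * X.etaE E + ((j + m : ℕ) : ℝ) * X.etaE (𝒞.Z j (fun i => X.φ (a i)))
        + X.pairs (𝒞.Z j (fun i => X.φ (a i))) + X.B (𝒞.Z j (fun i => X.φ (a i))) E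
        - ((m : ℝ) + 1 - 𝒞.g - Multiset.card E) * logHeight a| ≤ C * X.w := by
  obtain ⟨C1, hC1, h1⟩ := ctx_G1 𝒞 mmax emax
  obtain ⟨C2, hC2, h2⟩ := struct_thm 𝒞 mmax emax hb.1 hb.2.1
  refine ⟨C1 + 2 * C2, by positivity, ?_⟩
  intro X j a E ha hadm m hm hjm
  set Z := 𝒞.Z j (fun i => X.φ (a i)) with hZ
  have hcardZ : Multiset.card Z = j := 𝒞.card_Z j _ (CurveDatum.dg_map_ne_zero X.φ ha)
  have hE : X.Adm E := hadm.mono (Multiset.le_add_left _ _)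
  have hms : 𝒞.c0 ≤ 𝒞.ms := by unfold CurveDatum.ms; omega
  have hle1 : (𝒞.a + 1) * Multiset.card E ≤ (𝒞.a + 1) * (j + Multiset.card E) :=
    Nat.mul_le_mul_left _ (by omega)
  have hle2 : Multiset.card E ≤ (𝒞.a + 1) * Multiset.card E := Nat.le_mul_of_pos_left _ (by omega)
  have e1 := h1 X j m a E ha hjm hE (by omega)
  have e2 := h2 X (Z + E) hadm (j + m) (by rw [Multiset.card_add, hcardZ]; omega) hjm
  have e3 := h2 X E hE m (by omega) (by omega)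
  have hd := 𝒞.d_eq m (by omega)
  have hd' : (𝒞.d m : ℝ) = m + 1 - 𝒞.g := by
    have : ((𝒞.d m + 𝒞.g : ℕ) : ℝ) = ((m + 1 : ℕ) : ℝ) := by rw [hd]
    push_cast at this
    linarith
  rw [X.etaE_add, X.pairs_add] at e2
  rw [hd'] at e1
  rw [abs_le] at e1 e2 e3 ⊢
  push_cast at e2 ⊢
  constructor <;> linarith

/-- (†1) `η(Z(a)) ≈ h(a)`: `princ_dagger` with `E = 0` for `m` and `m + 1`, `m = (a+1) j + m_*`. -/
theorem etaE_Z (hb : 𝒞.Big mmax emax) : ∃ C : ℝ, 0 ≤ C ∧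
    ∀ (X : Ctx 𝒞 mmax emax) (j : ℕ) (a : Fin (𝒞.d j) → X.K), a ≠ 0 →
    X.Adm (𝒞.Z j (fun i => X.φ (a i))) →
    |X.etaE (𝒞.Z j (fun i => X.φ (a i))) - logHeight a| ≤ C * X.w := by
  obtain ⟨C, hC, h⟩ := princ_dagger 𝒞 mmax emax hb
  refine ⟨2 * C, by positivity, ?_⟩
  intro X j a ha hadm
  set Z := 𝒞.Z j (fun i => X.φ (a i)) with hZ
  have hcardZ : Multiset.card Z = j := 𝒞.card_Z j _ (CurveDatum.dg_map_ne_zero X.φ ha)
  have hj : j ≤ emax := hcardZ ▸ hadm.1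
  have hbig := hb.2.2
  have hmul : (𝒞.a + 2) * j ≤ (𝒞.a + 2) * emax := Nat.mul_le_mul_left _ hj
  have hexp : (𝒞.a + 2) * j = (𝒞.a + 1) * j + j := by ring
  have e1 := h X j a 0 ha (by rw [add_zero]; exact hadm) ((𝒞.a + 1) * j + 𝒞.ms)
    (by simp) (by omega)
  have e2 := h X j a 0 ha (by rw [add_zero]; exact hadm) ((𝒞.a + 1) * j + 𝒞.ms + 1)
    (by simp) (by omega)
  simp only [Ctx.etaE_zero, Ctx.B_zero_right, Multiset.card_zero, mul_zero, zero_add, add_zero,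
    Nat.cast_zero, sub_zero] at e1 e2
  rw [← hZ] at e1 e2
  rw [abs_le] at e1 e2 ⊢
  push_cast at e1 e2 ⊢
  constructor <;> linarith

/-- (†2) `pairs(Z(a)) ≈ (1 - g - j) h(a)`. -/
theorem pairs_Z (hb : 𝒞.Big mmax emax) : ∃ C : ℝ, 0 ≤ C ∧
    ∀ (X : Ctx 𝒞 mmax emax) (j : ℕ) (a : Fin (𝒞.d j) → X.K), a ≠ 0 →
    X.Adm (𝒞.Z j (fun i => X.φ (a i))) →
    |X.pairs (𝒞.Z j (fun i => X.φ (a i))) - (1 - (𝒞.g : ℝ) - j) * logHeight a| ≤ C * X.w := by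
  obtain ⟨C, hC, h⟩ := princ_dagger 𝒞 mmax emax hb
  obtain ⟨C', hC', h'⟩ := etaE_Z 𝒞 mmax emax hb
  refine ⟨C + mmax * C', by positivity, ?_⟩
  intro X j a ha hadm
  have e0 := h' X j a ha hadm
  set Z := 𝒞.Z j (fun i => X.φ (a i)) with hZ
  have hcardZ : Multiset.card Z = j := 𝒞.card_Z j _ (CurveDatum.dg_map_ne_zero X.φ ha)
  have hj : j ≤ emax := hcardZ ▸ hadm.1
  have hbig := hb.2.2
  have hmul : (𝒞.a + 2) * j ≤ (𝒞.a + 2) * emax := Nat.mul_le_mul_left _ hj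
  have hexp : (𝒞.a + 2) * j = (𝒞.a + 1) * j + j := by ring
  have hjm : j + ((𝒞.a + 1) * j + 𝒞.ms) ≤ mmax := by omega
  have e1 := h X j a 0 ha (by rw [add_zero]; exact hadm) ((𝒞.a + 1) * j + 𝒞.ms)
    (by simp) hjm
  simp only [Ctx.etaE_zero, Ctx.B_zero_right, Multiset.card_zero, mul_zero, zero_add, add_zero,
    Nat.cast_zero, sub_zero] at e1
  rw [← hZ] at e1
  have e2 := princ_abs_mul (t := ((j + ((𝒞.a + 1) * j + 𝒞.ms) : ℕ) : ℝ)) (T := mmax) e0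
    (Nat.cast_nonneg _) (by exact_mod_cast hjm)
  rw [abs_le] at e1 e2 ⊢
  push_cast at e1 e2 ⊢
  constructor <;> linarith

/-- (†3') `B'(Z(a), E) ≈ 0`. -/
theorem B'_Z (hb : 𝒞.Big mmax emax) : ∃ C : ℝ, 0 ≤ C ∧
    ∀ (X : Ctx 𝒞 mmax emax) (j : ℕ) (a : Fin (𝒞.d j) → X.K) (E : Multiset 𝒞.Pt), a ≠ 0 →
    X.Adm (𝒞.Z j (fun i => X.φ (a i)) + E) →
    |X.B' (𝒞.Z j (fun i => X.φ (a i))) E| ≤ C * X.w := by
  obtain ⟨C, hC, h⟩ := princ_dagger 𝒞 mmax emax hb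
  obtain ⟨C', hC', h'⟩ := etaE_Z 𝒞 mmax emax hb
  obtain ⟨C'', hC'', h''⟩ := pairs_Z 𝒞 mmax emax hb
  refine ⟨C + mmax * C' + C'' + emax * C', by positivity, ?_⟩
  intro X j a E ha hadm
  have hadmZ : X.Adm (𝒞.Z j (fun i => X.φ (a i))) := hadm.mono (Multiset.le_add_right _ _)
  have e0 := h' X j a ha hadmZ
  have e0' := h'' X j a ha hadmZ
  set Z := 𝒞.Z j (fun i => X.φ (a i)) with hZ
  have hcardZ : Multiset.card Z = j := 𝒞.card_Z j _ (CurveDatum.dg_map_ne_zero X.φ ha)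
  have hj : j + Multiset.card E ≤ emax := by
    have := hadm.1
    rwa [Multiset.card_add, hcardZ] at this
  have hbig := hb.2.2
  have hmul : (𝒞.a + 2) * (j + Multiset.card E) ≤ (𝒞.a + 2) * emax := Nat.mul_le_mul_left _ hj
  have hexp : (𝒞.a + 2) * (j + Multiset.card E) =
      (𝒞.a + 1) * (j + Multiset.card E) + (j + Multiset.card E) := by ring
  have hjm : j + ((𝒞.a + 1) * (j + Multiset.card E) + 𝒞.ms) ≤ mmax := by omega
  have e1 := h X j a E ha hadm ((𝒞.a + 1) * (j + Multiset.card E) + 𝒞.ms) le_rfl hjm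
  rw [← hZ] at e1
  have e2 := princ_abs_mul (t := ((j + ((𝒞.a + 1) * (j + Multiset.card E) + 𝒞.ms) : ℕ) : ℝ))
    (T := mmax) e0 (Nat.cast_nonneg _) (by exact_mod_cast hjm)
  have e3 := princ_abs_mul (t := ((Multiset.card E : ℕ) : ℝ)) (T := emax) e0
    (Nat.cast_nonneg _) (by exact_mod_cast (by omega : Multiset.card E ≤ emax))
  unfold Ctx.B'
  rw [hcardZ]
  rw [abs_le] at e0' e1 e2 e3 ⊢
  push_cast at e0' e1 e2 e3 ⊢
  constructor <;> linarith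

/-- `ζ*(Z(a)) ≈ 0`. -/
theorem zs_Z (hb : 𝒞.Big mmax emax) : ∃ C : ℝ, 0 ≤ C ∧
    ∀ (X : Ctx 𝒞 mmax emax) (j : ℕ) (a : Fin (𝒞.d j) → X.K), a ≠ 0 →
    X.Adm (𝒞.Z j (fun i => X.φ (a i))) →
    |X.zs (𝒞.Z j (fun i => X.φ (a i)))| ≤ C * X.w := by
  obtain ⟨C', hC', h'⟩ := etaE_Z 𝒞 mmax emax hb
  obtain ⟨C'', hC'', h''⟩ := pairs_Z 𝒞 mmax emax hb
  refine ⟨(emax + 𝒞.g) * C' + C' + C'', by positivity, ?_⟩
  intro X j a ha hadm
  have e0 := h' X j a ha hadm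
  have e0' := h'' X j a ha hadm
  set Z := 𝒞.Z j (fun i => X.φ (a i)) with hZ
  have hcardZ : Multiset.card Z = j := 𝒞.card_Z j _ (CurveDatum.dg_map_ne_zero X.φ ha)
  have hj : j ≤ emax := hcardZ ▸ hadm.1
  have e2 := princ_abs_mul (t := ((j + 𝒞.g : ℕ) : ℝ)) (T := (emax + 𝒞.g : ℝ)) e0
    (Nat.cast_nonneg _) (by push_cast; have : (j : ℝ) ≤ emax := by exact_mod_cast hj
                            linarith)
  unfold Ctx.zs
  rw [hcardZ]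
  rw [abs_le] at e0 e0' e2 ⊢
  push_cast at e0 e0' e2 ⊢
  constructor <;> linarith

end Fermat.Agent.S17
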