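import Fermat.Agent.S17.GB.Class

set_option autoImplicit false

/-!
# S17 / GB : the rational height `zQ` of a Galois stable divisor, comparison with `zs` in a context
-/

namespace Fermat.Agent.S17

open HL Height

namespace CurveDatum

variable (𝒞 : CurveDatum)

/-- height over `ℚ` -/
noncomputable def HgtQ (m : ℕ) (E : Multiset 𝒞.Pt) : ℝ := 𝒞.Hgt (algebraMap ℚ Qb) m E

/-- `ζ_ℚ(E) = H(M,E) - dim U_M(E) * (H(M+1,E) - H(M,E))` -/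
noncomputable def zQ (M : ℕ) (E : Multiset 𝒞.Pt) : ℝ :=
  𝒞.HgtQ M E - ((𝒞.d M : ℝ) - Multiset.card E) * (𝒞.HgtQ (M + 1) E - 𝒞.HgtQ M E)

end CurveDatum

variable (𝒞 : CurveDatum) (mmax emax : ℕ)

/-- base change: `HK_of_definedOver_rat` + `definedOver_rat`. -/
theorem ctx_H_rat (X : Ctx 𝒞 mmax emax) (m : ℕ) (E : Multiset 𝒞.Pt) (hE : 𝒞.IsRat E) :
    X.H m E = X.w * 𝒞.HgtQ m E := by
  exact HK_of_definedOver_rat X.φ _ (𝒞.definedOver_rat m E hE)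

/-- **(R1)** `w ζ_ℚ(E) ≈ ζ*(E)`: `struct_thm` for `M` and `M + 1`, `d_eq`. -/
theorem zQ_approx (hb : 𝒞.Big mmax emax) : ∃ C : ℝ, 0 ≤ C ∧
    ∀ (X : Ctx 𝒞 mmax emax) (E : Multiset 𝒞.Pt), 𝒞.IsRat E → X.Adm E → ∀ M : ℕ,
    (𝒞.a + 1) * Multiset.card E + 𝒞.ms ≤ M → M + 1 ≤ mmax →
    |X.w * 𝒞.zQ M E - X.zs E| ≤ C * X.w := by
  obtain ⟨C, hC, hst⟩ := struct_thm 𝒞 mmax emax hb.1 hb.2.1
  refine ⟨C * (1 + 2 * ((mmax : ℝ) + 1 + emax)), by positivity, ?_⟩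
  intro X E hrat hAdm M hM1 hM2
  have hw := X.w_pos
  have h1 := hst X E hAdm M hM1 (by omega)
  have h2 := hst X E hAdm (M + 1) (by omega) hM2
  rw [ctx_H_rat 𝒞 mmax emax X M E hrat] at h1
  rw [ctx_H_rat 𝒞 mmax emax X (M + 1) E hrat] at h2
  have hc0 : 𝒞.c0 ≤ M := by
    have : 𝒞.ms ≤ M := by omega
    unfold CurveDatum.ms at this
    omega
  have hd : (𝒞.d M : ℝ) + 𝒞.g = M + 1 := by exact_mod_cast 𝒞.d_eq M hc0
  have hcard : (Multiset.card E : ℝ) ≤ emax := by exact_mod_cast hAdm.1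
  have hMle : (M : ℝ) + 1 ≤ mmax := by exact_mod_cast hM2
  have hg : (0 : ℝ) ≤ 𝒞.g := Nat.cast_nonneg _
  have hcard0 : (0 : ℝ) ≤ Multiset.card E := Nat.cast_nonneg _
  have hd0 : (0 : ℝ) ≤ 𝒞.d M := Nat.cast_nonneg _
  set r : ℝ := (𝒞.d M : ℝ) - Multiset.card E with hr
  have hrabs : |r| ≤ (mmax : ℝ) + 1 + emax := by
    rw [abs_le]
    constructor <;> linarith
  set ε₁ := X.w * 𝒞.HgtQ M E - M * X.etaE E - X.pairs E with hε₁
  set ε₂ := X.w * 𝒞.HgtQ (M + 1) E - ((M + 1 : ℕ) : ℝ) * X.etaE E - X.pairs E with hε₂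
  have e : X.w * 𝒞.zQ M E - X.zs E = ε₁ - r * (ε₂ - ε₁) := by
    unfold CurveDatum.zQ Ctx.zs
    rw [hε₁, hε₂]
    push_cast
    have hr' : (𝒞.d M : ℝ) - Multiset.card E = r := rfl
    rw [hr']
    have hM' : (M : ℝ) = r + Multiset.card E + 𝒞.g - 1 := by rw [hr]; linarith
    rw [hM']
    ring
  rw [e]
  have hCw : 0 ≤ C * X.w := by positivity
  calc |ε₁ - r * (ε₂ - ε₁)| ≤ |ε₁| + |r| * (|ε₂| + |ε₁|) := by
        refine (abs_sub _ _).trans ?_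
        rw [abs_mul]
        gcongr
        exact abs_sub _ _
    _ ≤ C * X.w + ((mmax : ℝ) + 1 + emax) * (C * X.w + C * X.w) := by
        gcongr
    _ = C * (1 + 2 * ((mmax : ℝ) + 1 + emax)) * X.w := by ring

/-- `w (H_ℚ(M+1,E) - H_ℚ(M,E)) ≈ η(E)`. -/
theorem etaQ_approx (hb : 𝒞.Big mmax emax) : ∃ C : ℝ, 0 ≤ C ∧
    ∀ (X : Ctx 𝒞 mmax emax) (E : Multiset 𝒞.Pt), 𝒞.IsRat E → X.Adm E → ∀ M : ℕ,
    (𝒞.a + 1) * Multiset.card E + 𝒞.ms ≤ M → M + 1 ≤ mmax →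
    |X.w * (𝒞.HgtQ (M + 1) E - 𝒞.HgtQ M E) - X.etaE E| ≤ C * X.w := by
  obtain ⟨C, hC, hst⟩ := struct_thm 𝒞 mmax emax hb.1 hb.2.1
  refine ⟨2 * C, by positivity, ?_⟩
  intro X E hrat hAdm M hM1 hM2
  have h1 := hst X E hAdm M hM1 (by omega)
  have h2 := hst X E hAdm (M + 1) (by omega) hM2
  rw [ctx_H_rat 𝒞 mmax emax X M E hrat] at h1
  rw [ctx_H_rat 𝒞 mmax emax X (M + 1) E hrat] at h2
  push_cast at h2
  rw [abs_le] at *
  constructor <;> linarith [h1.1, h1.2, h2.1, h2.2]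

/-- a linear equivalence over `Qb` becomes a `KLin` in any context containing the coordinates of the witnesses and the points. -/
theorem klin_of_linEq (X : Ctx 𝒞 mmax emax) (m : ℕ) (E E' : Multiset 𝒞.Pt)
    (a a' : Fin (𝒞.d m) → Qb) (R : Multiset 𝒞.Pt) (ha : a ≠ 0) (ha' : a' ≠ 0)
    (h1 : 𝒞.Z m a = E + R) (h2 : 𝒞.Z m a' = E' + R) (hR : ∀ Q ∈ R, Q ∈ X.P)
    (hK : ∀ i, a i ∈ Set.range X.φ) (hK' : ∀ i, a' i ∈ Set.range X.φ) : X.KLin m E E' := by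
  choose b hb using hK
  choose b' hb' using hK'
  have e : (fun i => X.φ (b i)) = a := funext hb
  have e' : (fun i => X.φ (b' i)) = a' := funext hb'
  refine ⟨b, b', R, ?_, ?_, by rw [e]; exact h1, by rw [e']; exact h2, hR⟩
  · rintro rfl
    apply ha
    rw [← e]
    funext i
    simp
  · rintro rfl
    apply ha'
    rw [← e']
    funext i
    simp

end Fermat.Agent.S17
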