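import Fermat.Agent.S17.GB.Rat

set_option autoImplicit false

/-!
# S17 / GB : consequences of Siegel's lemma: `zQ` is bounded below, and a small residual divisor exists
-/

namespace Fermat.Agent.S17

open HL Height

variable (𝒞 : CurveDatum)

theorem sc_cst_ne_zero {n : ℕ} {u : Fin n → ℚ} (hu : u ≠ 0) : cst u ≠ 0 := by
  intro h
  apply hu
  funext i
  have := congrFun h i
  simpa [cst] using this

theorem sc_cast_ne_zero {K : Type} [Field K] [CharZero K] {n : ℕ} {u : Fin n → ℚ} (hu : u ≠ 0) :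
    (fun i => ((u i : ℚ) : K)) ≠ 0 := by
  intro h
  apply hu
  funext i
  have := congrFun h i
  simpa using this

theorem sc_map_cast {K : Type} [Field K] (φ : K →+* Qb) {n : ℕ} (u : Fin n → ℚ) :
    (fun i => φ ((u i : ℚ) : K)) = cst u := by
  funext i
  simp [cst]

/-- a value of `mmax` which is big enough -/
def scBig (𝒞 : CurveDatum) (emax extra : ℕ) : ℕ :=
  2 * 𝒞.ms + 𝒞.c0 + (𝒞.a + 2) * emax + 𝒞.ms + 1 + extra

theorem scBig_big (emax extra : ℕ) (he : 2 ≤ emax) : 𝒞.Big (scBig 𝒞 emax extra) emax := by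
  refine ⟨he, ?_, ?_⟩ <;> unfold scBig <;> omega

theorem sc_finite_mem {α : Type} (E : Multiset α) : {Q | Q ∈ E}.Finite := by
  classical
  exact (E.toFinset.finite_toSet).subset (fun Q hQ => by simpa using hQ)

theorem sc_d_gt (e M : ℕ) (hM : (𝒞.a + 1) * e + 𝒞.ms ≤ M) :
    e + 𝒞.c0 + 𝒞.g ≤ M ∧ e < 𝒞.d M ∧ 𝒞.d M + 𝒞.g = M + 1 := by
  have h1 : e ≤ (𝒞.a + 1) * e := Nat.le_mul_of_pos_left _ (by omega)
  have h2 : 𝒞.ms = 2 * (𝒞.g + 𝒞.c0 + 1) + 1 + 𝒞.c0 := rfl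
  have h3 := 𝒞.d_eq M (by omega)
  refine ⟨by omega, by omega, h3⟩

/-- (Sg1) a small rational section vanishing on a rational divisor: `siegel` for a rational basis of `U M E`. -/
theorem exists_small_section (M : ℕ) (E : Multiset 𝒞.Pt) (hE : 𝒞.IsRat E)
    (hM : Multiset.card E + 𝒞.c0 + 𝒞.g ≤ M) :
    ∃ (u : Fin (𝒞.d M) → ℚ) (E' : Multiset 𝒞.Pt), u ≠ 0 ∧ 𝒞.Z M (cst u) = E + E' ∧ 𝒞.IsRat E' ∧
      ((𝒞.d M : ℝ) - Multiset.card E) * logHeight u ≤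
        𝒞.HgtQ M E + ((𝒞.d M : ℝ) - Multiset.card E) * Real.log ((𝒞.d M : ℝ) - Multiset.card E) := by
  obtain ⟨r, S, hS⟩ := 𝒞.definedOver_rat M E hE
  have hfr := 𝒞.finrank_U M E (by omega)
  rw [hS.finrank_eq] at hfr
  have hd := 𝒞.d_eq M (by omega)
  have hr : 0 < r := by omega
  obtain ⟨u, hu, hu0, hle⟩ := siegel hr S hS.1
  have hmem := (hS.mem_rsp_iff _ u).1 hu
  have hcst : (fun k => algebraMap ℚ Qb (u k)) = cst u := by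
    funext k
    simp [cst]
  rw [hcst, 𝒞.mem_U] at hmem
  obtain ⟨E', hE'⟩ := Multiset.le_iff_exists_add.mp (hmem.resolve_left (sc_cst_ne_zero hu0))
  refine ⟨u, E', hu0, hE', ?_, ?_⟩
  · apply 𝒞.isRat_of_add E E' _ hE
    rw [← hE']
    exact 𝒞.isRat_Z M u hu0
  · have hcast : (𝒞.d M : ℝ) - Multiset.card E = r := by
      have : ((r + Multiset.card E : ℕ) : ℝ) = (𝒞.d M : ℝ) := by rw [hfr]
      push_cast at this
      linarith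
    rw [hcast]
    have : 𝒞.HgtQ M E = Hmat S := HK_eq _ hS
    rw [this]
    exact hle

/-- (Sg2) in rational terms:  `N(E') ≤ ζ_ℚ(E) / r + C`, `N(E') = H_ℚ(M'+1,E') - H_ℚ(M',E')`, `r = d M - |E|`.
Take a context containing the points of `E + E'`; `η(E) + η(E') = η(Z u) ≈ h_K(u) = w h_ℚ(u)` (`etaE_Z`, `logHeight_map_rat`),
`etaQ_approx` for `E` (at `M`) and `E'` (at `M'`); definition of `zQ`. -/
theorem residual_small (e M M' : ℕ) (hM : (𝒞.a + 1) * e + 𝒞.ms ≤ M)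
    (hM' : (𝒞.a + 1) * M + 𝒞.ms ≤ M') : ∃ C : ℝ, ∀ (E : Multiset 𝒞.Pt), 𝒞.IsRat E →
    Multiset.card E = e →
    ∃ (u : Fin (𝒞.d M) → ℚ) (E' : Multiset 𝒞.Pt), u ≠ 0 ∧ 𝒞.Z M (cst u) = E + E' ∧ 𝒞.IsRat E' ∧
      ((𝒞.d M : ℝ) - e) * (𝒞.HgtQ (M' + 1) E' - 𝒞.HgtQ M' E') ≤ 𝒞.zQ M E + C := by
  obtain ⟨hM1, hM2, hM3⟩ := sc_d_gt 𝒞 e M hM
  have hb := scBig_big 𝒞 (M + 2) (M + M' + 1) (by omega)
  obtain ⟨C1, hC1, h1⟩ := etaE_Z 𝒞 _ _ hb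
  obtain ⟨C2, hC2, h2⟩ := etaQ_approx 𝒞 _ _ hb
  refine ⟨((𝒞.d M : ℝ) - e) * Real.log ((𝒞.d M : ℝ) - e) + ((𝒞.d M : ℝ) - e) * (2 * C2 + C1), ?_⟩
  intro E hE hcard
  obtain ⟨u, E', hu0, hZ, hE', hle⟩ := exists_small_section 𝒞 M E hE (by rw [hcard]; exact hM1)
  refine ⟨u, E', hu0, hZ, hE', ?_⟩
  obtain ⟨X, hXP, -⟩ := exists_ctx 𝒞 (scBig 𝒞 (M + 2) (M + M' + 1)) (M + 2) {Q | Q ∈ E + E'}
    (sc_finite_mem _) ∅
  have hcZ := 𝒞.card_Z M _ (sc_cst_ne_zero hu0)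
  have hcE' : Multiset.card E' + e = M := by
    rw [hZ, Multiset.card_add, hcard] at hcZ
    omega
  have hadm : X.Adm (E + E') :=
    ⟨by rw [Multiset.card_add, hcard]; omega, fun Q hQ => by rw [hXP]; exact hQ⟩
  have e1 := h1 X M (fun i => ((u i : ℚ) : X.K)) (sc_cast_ne_zero hu0)
    (by rw [sc_map_cast, hZ]; exact hadm)
  rw [sc_map_cast, hZ, X.etaE_add, logHeight_map_rat] at e1
  have e2 := h2 X E hE (hadm.mono (Multiset.le_add_right _ _)) M (by rw [hcard]; exact hM)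
    (by unfold scBig; omega)
  have hmul : (𝒞.a + 1) * Multiset.card E' ≤ (𝒞.a + 1) * M := Nat.mul_le_mul_left _ (by omega)
  have e3 := h2 X E' hE' (hadm.mono (Multiset.le_add_left _ _)) M' (by omega)
    (by unfold scBig; omega)
  have hw := X.w_pos
  have hwdef : (Module.finrank ℚ X.K : ℝ) = X.w := rfl
  rw [hwdef] at e1
  rw [hcard] at hle
  set N := 𝒞.HgtQ (M + 1) E - 𝒞.HgtQ M E with hN
  set N' := 𝒞.HgtQ (M' + 1) E' - 𝒞.HgtQ M' E' with hN'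
  have hz : 𝒞.zQ M E = 𝒞.HgtQ M E - ((𝒞.d M : ℝ) - e) * N := by
    unfold CurveDatum.zQ
    rw [hcard]
  have hr0 : (0 : ℝ) ≤ (𝒞.d M : ℝ) - e := by
    have : (e : ℝ) ≤ 𝒞.d M := by exact_mod_cast hM2.le
    linarith
  have key : N' ≤ logHeight u - N + (2 * C2 + C1) := by
    rw [abs_le] at e1 e2 e3
    have : X.w * N' ≤ X.w * (logHeight u - N + (2 * C2 + C1)) := by nlinarith
    exact le_of_mul_le_mul_left this hw
  have := mul_le_mul_of_nonneg_left key hr0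
  rw [hz]
  nlinarith

/-- `N(E') ≥ -C` for rational `E'` (`eta_ge`, `etaQ_approx`). -/
theorem etaQ_ge (e' M' : ℕ) (hM' : (𝒞.a + 1) * e' + 𝒞.ms ≤ M') : ∃ C : ℝ,
    ∀ (E' : Multiset 𝒞.Pt), 𝒞.IsRat E' → Multiset.card E' = e' →
      - C ≤ 𝒞.HgtQ (M' + 1) E' - 𝒞.HgtQ M' E' := by
  have hb := scBig_big 𝒞 (e' + 2) (M' + 1) (by omega)
  obtain ⟨C1, hC1, h1⟩ := eta_ge 𝒞 _ _ (by omega : 1 ≤ e' + 2) hb.2.1
  obtain ⟨C2, hC2, h2⟩ := etaQ_approx 𝒞 _ _ hb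
  refine ⟨e' * C1 + C2, ?_⟩
  intro E' hE' hcard
  obtain ⟨X, hXP, -⟩ := exists_ctx 𝒞 (scBig 𝒞 (e' + 2) (M' + 1)) (e' + 2) {Q | Q ∈ E'}
    (sc_finite_mem _) ∅
  have hadm : X.Adm E' := ⟨by omega, fun Q hQ => by rw [hXP]; exact hQ⟩
  have e3 := h2 X E' hE' hadm M' (by rw [hcard]; exact hM') (by unfold scBig; omega)
  have hw := X.w_pos
  have hsum : (Multiset.card (E'.map X.eta)) • (-(C1 * X.w)) ≤ (E'.map X.eta).sum := by
    apply Multiset.card_nsmul_le_sum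
    intro x hx
    obtain ⟨Q, hQ, rfl⟩ := Multiset.mem_map.mp hx
    exact h1 X Q (hadm.2 Q hQ)
  rw [Multiset.card_map, hcard, nsmul_eq_mul] at hsum
  have heta : X.etaE E' = (E'.map X.eta).sum := rfl
  rw [abs_le, heta] at e3
  have : X.w * (-(e' * C1 + C2)) ≤ X.w * (𝒞.HgtQ (M' + 1) E' - 𝒞.HgtQ M' E') := by nlinarith
  exact le_of_mul_le_mul_left this hw

/-- **`ζ_ℚ` is bounded below.** -/
theorem zQ_ge (e M : ℕ) (hM : (𝒞.a + 1) * e + 𝒞.ms ≤ M) : ∃ C : ℝ,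
    ∀ (E : Multiset 𝒞.Pt), 𝒞.IsRat E → Multiset.card E = e → - C ≤ 𝒞.zQ M E := by
  obtain ⟨hM1, hM2, hM3⟩ := sc_d_gt 𝒞 e M hM
  obtain ⟨C1, h1⟩ := residual_small 𝒞 e M ((𝒞.a + 1) * M + 𝒞.ms) hM le_rfl
  have hmul : (𝒞.a + 1) * (M - e) ≤ (𝒞.a + 1) * M := Nat.mul_le_mul_left _ (by omega)
  obtain ⟨C2, h2⟩ := etaQ_ge 𝒞 (M - e) ((𝒞.a + 1) * M + 𝒞.ms) (by omega)
  refine ⟨((𝒞.d M : ℝ) - e) * C2 + C1, ?_⟩
  intro E hE hcard
  obtain ⟨u, E', hu0, hZ, hE', hle⟩ := h1 E hE hcard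
  have hcZ := 𝒞.card_Z M _ (sc_cst_ne_zero hu0)
  have hcE' : Multiset.card E' = M - e := by
    rw [hZ, Multiset.card_add, hcard] at hcZ
    omega
  have e2 := h2 E' hE' hcE'
  have hr0 : (0 : ℝ) ≤ (𝒞.d M : ℝ) - e := by
    have : (e : ℝ) ≤ 𝒞.d M := by exact_mod_cast hM2.le
    linarith
  have := mul_le_mul_of_nonneg_left e2 hr0
  nlinarith

end Fermat.Agent.S17
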