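import Fermat.Agent.S17.GB.Point
import Fermat.Agent.S17.GB.Algebra

set_option autoImplicit false

/-!
# S17 / GB : the structure theorem  `H(m, E) ≈ m η(E) + pairs(E)`
-/

namespace Fermat.Agent.S17

open HL Height

variable (𝒞 : CurveDatum) (mmax emax : ℕ)

theorem abs_map_sum_sub_le {α : Type} (E : Multiset α) (f g : α → ℝ) (c : ℝ)
    (h : ∀ x ∈ E, |f x - g x| ≤ c) :
    |(E.map f).sum - (E.map g).sum| ≤ Multiset.card E * c := by
  induction E using Multiset.induction_on with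
  | empty => simp
  | cons a s ih =>
    have h1 := h a (Multiset.mem_cons_self a s)
    have h2 := ih fun x hx => h x (Multiset.mem_cons_of_mem hx)
    rw [Multiset.map_cons, Multiset.map_cons, Multiset.sum_cons, Multiset.sum_cons,
      Multiset.card_cons]
    push_cast
    rw [abs_le] at *
    constructor <;> nlinarith [h1.1, h1.2, h2.1, h2.2]

theorem Ctx.H_zero {𝒞 : CurveDatum} {mmax emax : ℕ} (X : Ctx 𝒞 mmax emax) (m : ℕ) : X.H m 0 = 0 :=
  𝒞.Hgt_zero X.φ m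

theorem diff_linear (he : 2 ≤ emax) (hm : 2 * 𝒞.ms + 𝒞.c0 ≤ mmax) : ∃ C : ℝ, 0 ≤ C ∧
    ∀ (X : Ctx 𝒞 mmax emax) (E : Multiset 𝒞.Pt) (Q : 𝒞.Pt), X.Adm (Q ::ₘ E) → ∀ m : ℕ,
    (𝒞.a + 1) * Multiset.card E + 𝒞.ms ≤ m → m ≤ mmax →
    |X.Dq m E Q - m * X.eta Q - (E.map fun Q' => X.tau Q Q').sum| ≤ C * X.w := by
  obtain ⟨C₀, hC₀, hpt⟩ := point_linear 𝒞 mmax emax (by omega) hm
  obtain ⟨C₂, hC₂, hG2⟩ := ctx_G2 𝒞 mmax emax
  refine ⟨C₀ + emax * C₂, by positivity, ?_⟩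
  intro X E Q hAdm m hm1 hm2
  have hw := X.w_pos
  have key : ∀ (E : Multiset 𝒞.Pt), X.Adm (Q ::ₘ E) → ∀ m : ℕ,
      (𝒞.a + 1) * Multiset.card E + 𝒞.ms ≤ m → m ≤ mmax →
      |X.Dq m E Q - m * X.eta Q - (E.map fun Q' => X.tau Q Q').sum| ≤
        (C₀ + Multiset.card E * C₂) * X.w := by
    intro E
    induction E using Multiset.induction_on with
    | empty =>
      intro hAdm m hm1 hm2
      have h1 := hpt X Q (hAdm.2 Q (Multiset.mem_cons_self _ _)) m (by simpa using hm1) hm2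
      simp only [Multiset.map_zero, Multiset.sum_zero, sub_zero, Multiset.card_zero,
        Nat.cast_zero, zero_mul, add_zero]
      have e : X.Dq m 0 Q = X.H m {Q} := by
        unfold Ctx.Dq
        rw [X.H_zero, sub_zero]
        rfl
      rw [e]
      exact h1
    | cons Q' E₁ ih =>
      intro hAdm m hm1 hm2
      rw [Multiset.card_cons] at hm1
      have hms : 𝒞.ms = 2 * 𝒞.a + 1 + 𝒞.c0 := rfl
      have hexp : (𝒞.a + 1) * (Multiset.card E₁ + 1) =
          (𝒞.a + 1) * Multiset.card E₁ + (𝒞.a + 1) := by ring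
      have hcard : Multiset.card E₁ ≤ (𝒞.a + 1) * Multiset.card E₁ :=
        Nat.le_mul_of_pos_left _ (Nat.succ_pos _)
      obtain ⟨m', rfl⟩ : ∃ m', m = (𝒞.a + 1) + m' := ⟨m - (𝒞.a + 1), by omega⟩
      have hAdm1 : X.Adm (Q ::ₘ E₁) := hAdm.mono (by
        apply Multiset.cons_le_cons
        exact Multiset.le_cons_self _ _)
      have h1 := ih hAdm1 m' (by omega) (by omega)
      have h2 := hG2 X (𝒞.a + 1) m' {Q'} E₁ Q hm2 (by rwa [Multiset.singleton_add])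
        (by rw [Multiset.card_singleton]; omega) (by omega)
        (by rw [Multiset.card_singleton]; omega)
      rw [Multiset.singleton_add] at h2
      have e : X.Dq (𝒞.a + 1) {Q'} Q = X.tau Q Q' + (𝒞.a + 1 : ℕ) * X.eta Q := by
        unfold Ctx.tau; ring
      rw [e] at h2
      rw [Multiset.map_cons, Multiset.sum_cons, Multiset.card_cons]
      push_cast at *
      rw [abs_le] at *
      constructor <;> nlinarith [h1.1, h1.2, h2.1, h2.2]
  refine (key E hAdm m hm1 hm2).trans ?_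
  have hc : (Multiset.card E : ℝ) ≤ emax := by
    have := hAdm.1
    rw [Multiset.card_cons] at this
    exact_mod_cast (by omega : Multiset.card E ≤ emax)
  gcongr

theorem tau_symm (he : 2 ≤ emax) (hm : 2 * 𝒞.ms + 𝒞.c0 ≤ mmax) : ∃ C : ℝ, 0 ≤ C ∧
    ∀ (X : Ctx 𝒞 mmax emax) (Q Q' : 𝒞.Pt), Q ∈ X.P → Q' ∈ X.P →
    |X.tau Q Q' - X.tau Q' Q| ≤ C * X.w := by
  obtain ⟨C₀, hC₀, hpt⟩ := point_linear 𝒞 mmax emax (by omega) hm
  obtain ⟨C₁, hC₁, hdl⟩ := diff_linear 𝒞 mmax emax he hm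
  refine ⟨2 * C₀ + 2 * C₁, by positivity, ?_⟩
  intro X Q Q' hQ hQ'
  have hms : 𝒞.ms = 2 * 𝒞.a + 1 + 𝒞.c0 := rfl
  set m := (𝒞.a + 1) + 𝒞.ms with hmdef
  have hAdm : ∀ P P' : 𝒞.Pt, P ∈ X.P → P' ∈ X.P → X.Adm (P ::ₘ {P'}) := by
    intro P P' hP hP'
    refine ⟨by simpa using he, ?_⟩
    intro R hR
    rw [Multiset.mem_cons, Multiset.mem_singleton] at hR
    rcases hR with rfl | rfl
    · exact hP
    · exact hP'
  have h1 := hdl X {Q'} Q (hAdm Q Q' hQ hQ') m (by rw [Multiset.card_singleton]; omega) (by omega)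
  have h2 := hdl X {Q} Q' (hAdm Q' Q hQ' hQ) m (by rw [Multiset.card_singleton]; omega) (by omega)
  have h3 := hpt X Q hQ m (by omega) (by omega)
  have h4 := hpt X Q' hQ' m (by omega) (by omega)
  simp only [Multiset.map_singleton, Multiset.sum_singleton] at h1 h2
  unfold Ctx.Dq at h1 h2
  have e : (Q' ::ₘ {Q} : Multiset 𝒞.Pt) = Q ::ₘ {Q'} := Multiset.pair_comm _ _
  rw [e] at h2
  rw [abs_le] at *
  constructor <;> nlinarith [h1.1, h1.2, h2.1, h2.2, h3.1, h3.2, h4.1, h4.2]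

theorem struct_thm (he : 2 ≤ emax) (hm : 2 * 𝒞.ms + 𝒞.c0 ≤ mmax) : ∃ C : ℝ, 0 ≤ C ∧
    ∀ (X : Ctx 𝒞 mmax emax) (E : Multiset 𝒞.Pt), X.Adm E → ∀ m : ℕ,
    (𝒞.a + 1) * Multiset.card E + 𝒞.ms ≤ m → m ≤ mmax →
    |X.H m E - m * X.etaE E - X.pairs E| ≤ C * X.w := by
  obtain ⟨C₁, hC₁, hdl⟩ := diff_linear 𝒞 mmax emax he hm
  obtain ⟨C₂, hC₂, hts⟩ := tau_symm 𝒞 mmax emax he hm
  refine ⟨emax * (C₁ + emax * (C₂ / 2)), by positivity, ?_⟩
  intro X E hAdm m hm1 hm2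
  have hw := X.w_pos
  have key : ∀ (E : Multiset 𝒞.Pt), X.Adm E → (𝒞.a + 1) * Multiset.card E + 𝒞.ms ≤ m →
      |X.H m E - m * X.etaE E - X.pairs E| ≤
        Multiset.card E * ((C₁ + emax * (C₂ / 2)) * X.w) := by
    intro E
    induction E using Multiset.induction_on with
    | empty =>
      intro _ _
      simp [X.H_zero]
    | cons Q E₁ ih =>
      intro hAdm hm1
      rw [Multiset.card_cons] at hm1
      have hexp : (𝒞.a + 1) * (Multiset.card E₁ + 1) =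
          (𝒞.a + 1) * Multiset.card E₁ + (𝒞.a + 1) := by ring
      have hAdm1 : X.Adm E₁ := hAdm.mono (Multiset.le_cons_self _ _)
      have h1 := ih hAdm1 (by omega)
      have h2 := hdl X E₁ Q hAdm m (by omega) hm2
      have h3 := abs_map_sum_sub_le E₁ (fun Q' => X.tau Q Q') (fun Q' => X.taus Q Q')
        (C₂ / 2 * X.w) (by
          intro Q' hQ'
          have h4 := hts X Q Q' (hAdm.2 Q (Multiset.mem_cons_self _ _))
            (hAdm.2 Q' (Multiset.mem_cons_of_mem hQ'))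
          have e : X.tau Q Q' - X.taus Q Q' = (X.tau Q Q' - X.tau Q' Q) / 2 := by
            unfold Ctx.taus; ring
          rw [e, abs_div, abs_of_pos (by norm_num : (0 : ℝ) < 2)]
          linarith)
      have hc : (Multiset.card E₁ : ℝ) ≤ emax := by
        exact_mod_cast hAdm1.1
      have h5 : (Multiset.card E₁ : ℝ) * (C₂ / 2 * X.w) ≤ emax * (C₂ / 2 * X.w) := by
        gcongr
      rw [X.etaE_cons, X.pairs_cons, Multiset.card_cons]
      unfold Ctx.Dq at h2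
      push_cast
      rw [abs_le] at *
      constructor <;> nlinarith [h1.1, h1.2, h2.1, h2.2, h3.1, h3.2, h5]
  refine (key E hAdm hm1).trans ?_
  have hc : (Multiset.card E : ℝ) ≤ emax := by exact_mod_cast hAdm.1
  have : 0 ≤ (C₁ + emax * (C₂ / 2)) * X.w := by positivity
  calc (Multiset.card E : ℝ) * ((C₁ + emax * (C₂ / 2)) * X.w)
      ≤ emax * ((C₁ + emax * (C₂ / 2)) * X.w) := by gcongr
    _ = _ := by ring

end Fermat.Agent.S17
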